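-- Project H (S43), block H-PATCH: the abstract patching theorem, DEFINITIONS.
--
-- Base ring `Λ` (complete Noetherian local, finite residue field; in the application `Λ = 𝒪[G_T]`,
-- `G_T = ∏_{r ∈ T} (ℤ/r)ˣ/p`), `S = Λ⟦y₁,…,y_m⟧`, and a complete Noetherian local `Λ`-algebra `P` with
-- finite residue field (in the application `P = Λ⟦local coordinates at r ∈ T; z₁,…,z_h⟧`).
--
-- A *patching level* `n` is a `P`-module `M` together with a `Λ`-algebra map `s : S → P` (variables to
-- the maximal ideal) such that `M` is generated over `S` (through `s`) by `d` elements `b i` whose only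
-- relations have coefficients in `𝔪_S ^ n`; and an identification of `M/(y)M` with a fixed finite
-- `Λ`-module `M0`, equivariant for a `Λ`-algebra map `e : P → T0` to a fixed finite commutative
-- `Λ`-algebra `T0` acting on `M0`.
--
-- The *output* is one `s : S → P` and one `P`-module `M`, FREE of rank `d` over `S` through `s`, with
-- `M/(y)M ≅ M0` equivariantly for one `e : P → T0`.
import Mathlib
import Fermat.Agent.TeamA.MvPS

set_option autoImplicit false

namespace Fermat.Agent.S43lib.Patch

open IsLocalRing MvPowerSeries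

/-- A patching level of depth `n`. -/
structure PatchLevel (Λ : Type) [CommRing Λ] (m d : ℕ) (P : Type) [CommRing P] [IsLocalRing P]
    [Algebra Λ P] (T0 : Type) [CommRing T0] [Algebra Λ T0] (M0 : Type) [AddCommGroup M0]
    [Module T0 M0] [IsLocalRing (MvPowerSeries (Fin m) Λ)] (n : ℕ) : Type 1 where
  /-- the `S`-structure -/
  s : MvPowerSeries (Fin m) Λ →ₐ[Λ] P
  s_X_mem : ∀ i, s (X i) ∈ maximalIdeal P
  /-- the module -/
  M : Type
  [instAddCommGroup : AddCommGroup M]
  [instModule : Module P M]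
  /-- an almost-basis over `S` -/
  b : Fin d → M
  b_span : ∀ x : M, ∃ c : Fin d → MvPowerSeries (Fin m) Λ, x = ∑ i, s (c i) • b i
  b_rel : ∀ c : Fin d → MvPowerSeries (Fin m) Λ, ∑ i, s (c i) • b i = 0 →
    ∀ i, c i ∈ maximalIdeal (MvPowerSeries (Fin m) Λ) ^ n
  /-- the base level -/
  e : P →ₐ[Λ] T0
  v : M →+ M0
  v_smul : ∀ (r : P) (x : M), v (r • x) = e r • v x
  v_surjective : Function.Surjective v
  ker_v : ∀ x : M, v x = 0 ↔
    x ∈ (Ideal.span (Set.range fun i : Fin m => s (X i))) • (⊤ : Submodule P M)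

attribute [instance] PatchLevel.instAddCommGroup PatchLevel.instModule

/-- The patched object. -/
structure PatchOutput (Λ : Type) [CommRing Λ] (m d : ℕ) (P : Type) [CommRing P] [IsLocalRing P]
    [Algebra Λ P] (T0 : Type) [CommRing T0] [Algebra Λ T0] (M0 : Type) [AddCommGroup M0]
    [Module T0 M0] : Type 1 where
  s : MvPowerSeries (Fin m) Λ →ₐ[Λ] P
  s_X_mem : ∀ i, s (X i) ∈ maximalIdeal P
  M : Type
  [instAddCommGroup : AddCommGroup M]
  [instModule : Module P M]
  /-- a basis over `S` -/
  b : Fin d → M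
  b_basis : ∀ x : M, ∃! c : Fin d → MvPowerSeries (Fin m) Λ, x = ∑ i, s (c i) • b i
  e : P →ₐ[Λ] T0
  v : M →+ M0
  v_smul : ∀ (r : P) (x : M), v (r • x) = e r • v x
  v_surjective : Function.Surjective v
  ker_v : ∀ x : M, v x = 0 ↔
    x ∈ (Ideal.span (Set.range fun i : Fin m => s (X i))) • (⊤ : Submodule P M)

attribute [instance] PatchOutput.instAddCommGroup PatchOutput.instModule

/-- **Block H-PATCH.**  Patching levels of all depths patch to a patched object; elements of `P` that
go to a constant element of `T0` at all levels still do; and inclusions `J • M ≤ 𝔨 • M` (`J` an ideal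
of `P`, `𝔨` an ideal of `Λ`) that hold at all levels still hold. -/
def PatchStatement (Λ : Type) [CommRing Λ] (m d : ℕ) (P : Type) [CommRing P] [IsLocalRing P]
    [Algebra Λ P] (T0 : Type) [CommRing T0] [Algebra Λ T0] (M0 : Type) [AddCommGroup M0]
    [Module T0 M0] [IsLocalRing (MvPowerSeries (Fin m) Λ)] : Prop :=
  ∀ L : ∀ n : ℕ, PatchLevel Λ m d P T0 M0 n,
    ∃ O : PatchOutput Λ m d P T0 M0,
      (∀ (r : P) (t : T0), (∀ n, (L n).e r = t) → O.e r = t) ∧
      (∀ (J : Ideal P) (𝔨 : Ideal Λ),
        (∀ n, ∀ r ∈ J, ∀ x : (L n).M,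
          r • x ∈ (𝔨.map (algebraMap Λ P)) • (⊤ : Submodule P (L n).M)) →
        ∀ r ∈ J, ∀ x : O.M, r • x ∈ (𝔨.map (algebraMap Λ P)) • (⊤ : Submodule P O.M))

end Fermat.Agent.S43lib.Patch
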