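-- Project H (S43), block H-PATCH: ultralimits in adically compact modules.
--
-- `AdicCompact I X`: the `R`-module `X` is `I`-adically complete and all `X / I^k X` are finite.  Every
-- sequence in such a module has a limit along the hyperfilter on `ℕ` (`ulim`), characterised by
-- `∀ k, ∀ᶠ n, a n - ulim a ∈ I^k X`; it is additive, compatible with linear maps and products.
import Mathlib

set_option autoImplicit false

namespace Fermat.Agent.S43lib.Patch

open Filter

/-- The fixed non-principal ultrafilter on `ℕ`. -/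
noncomputable def 𝔘 : Ultrafilter ℕ := hyperfilter ℕ

theorem 𝔘_le_atTop : (𝔘 : Filter ℕ) ≤ atTop := Nat.hyperfilter_le_atTop

theorem eventually_ge_𝔘 (k : ℕ) : ∀ᶠ n in (𝔘 : Filter ℕ), k ≤ n :=
  𝔘_le_atTop (eventually_ge_atTop k)

section Module

variable {R : Type*} [CommRing R] (I : Ideal R) (X : Type*) [AddCommGroup X] [Module R X]

/-- `X` is `I`-adically complete with finite quotients `X / I^k X`. -/
class AdicCompact : Prop where
  complete : IsAdicComplete I X
  finite : ∀ k : ℕ, Finite (X ⧸ (I ^ k • ⊤ : Submodule R X))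

variable {X}

/-- Being close to order `k`. -/
def Near (k : ℕ) (x y : X) : Prop := x - y ∈ (I ^ k • ⊤ : Submodule R X)

variable {I}

theorem Near.refl (k : ℕ) (x : X) : Near I k x x := by
  unfold Near; rw [sub_self]; exact Submodule.zero_mem _

theorem Near.symm {k : ℕ} {x y : X} (h : Near I k x y) : Near I k y x := by
  unfold Near at *; rw [← neg_sub]; exact Submodule.neg_mem _ h

theorem Near.trans {k : ℕ} {x y z : X} (h : Near I k x y) (h' : Near I k y z) : Near I k x z := by
  unfold Near at *
  have := Submodule.add_mem _ h h'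
  rwa [sub_add_sub_cancel] at this

theorem Near.add {k : ℕ} {x y x' y' : X} (h : Near I k x y) (h' : Near I k x' y') :
    Near I k (x + x') (y + y') := by
  unfold Near at *
  have := Submodule.add_mem _ h h'
  rwa [add_sub_add_comm]

theorem Near.neg {k : ℕ} {x y : X} (h : Near I k x y) : Near I k (-x) (-y) := by
  unfold Near at *
  have h1 : -x - -y = -(x - y) := by abel
  rw [h1]
  exact Submodule.neg_mem _ h

theorem Near.sub {k : ℕ} {x y x' y' : X} (h : Near I k x y) (h' : Near I k x' y') :
    Near I k (x - x') (y - y') := by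
  rw [sub_eq_add_neg, sub_eq_add_neg]; exact h.add h'.neg

theorem Near.smul {k : ℕ} {x y : X} (h : Near I k x y) (c : R) : Near I k (c • x) (c • y) := by
  unfold Near at *
  rw [← smul_sub]; exact Submodule.smul_mem _ c h

theorem Near.mono {k j : ℕ} (hjk : j ≤ k) {x y : X} (h : Near I k x y) : Near I j x y := by
  unfold Near at *
  exact Submodule.smul_mono_left (Ideal.pow_le_pow_right hjk) h

theorem near_iff_mk {k : ℕ} {x y : X} : Near I k x y ↔
    (Submodule.Quotient.mk x : X ⧸ (I ^ k • ⊤ : Submodule R X)) = Submodule.Quotient.mk y := by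
  unfold Near; rw [Submodule.Quotient.eq]

theorem near_sum {ι : Type*} (s : Finset ι) {k : ℕ} {x y : ι → X}
    (h : ∀ i ∈ s, Near I k (x i) (y i)) : Near I k (∑ i ∈ s, x i) (∑ i ∈ s, y i) := by
  classical
  induction s using Finset.induction_on with
  | empty => simpa using Near.refl k (0 : X)
  | insert a s ha ih =>
    rw [Finset.sum_insert ha, Finset.sum_insert ha]
    exact (h a (Finset.mem_insert_self a s)).add
      (ih fun i hi => h i (Finset.mem_insert_of_mem hi))

/-- Hausdorff: near to all orders means equal. -/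
theorem eq_of_forall_near [AdicCompact I X] {x y : X} (h : ∀ k, Near I k x y) : x = y := by
  have hH : IsHausdorff I X := (AdicCompact.complete (I := I) (X := X)).toIsHausdorff
  rw [← sub_eq_zero]
  apply hH.haus
  intro n
  rw [SModEq.zero]
  exact h n

variable (I)

theorem exists_ulim [AdicCompact I X] (a : ℕ → X) :
    ∃ x : X, ∀ k, ∀ᶠ n in (𝔘 : Filter ℕ), Near I k (a n) x := by
  classical
  have hP : IsPrecomplete I X := (AdicCompact.complete (I := I) (X := X)).toIsPrecomplete
  -- the eventual class modulo `I^k`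
  have hc : ∀ k : ℕ, ∃ c : X ⧸ (I ^ k • ⊤ : Submodule R X),
      ∀ᶠ n in (𝔘 : Filter ℕ), Submodule.Quotient.mk (a n) = c := by
    intro k
    have := AdicCompact.finite (I := I) (X := X) k
    exact Ultrafilter.eventually_exists_iff.mp (Eventually.of_forall fun n => ⟨_, rfl⟩)
  choose c hc using hc
  -- pick indices in the finite intersections
  have hF : ∀ k : ℕ, ∀ᶠ n in (𝔘 : Filter ℕ), ∀ j ≤ k,
      (Submodule.Quotient.mk (a n) : X ⧸ (I ^ j • ⊤ : Submodule R X)) = c j := by
    intro k
    induction k with
    | zero =>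
      filter_upwards [hc 0] with n hn j hj
      obtain rfl : j = 0 := Nat.le_zero.mp hj
      exact hn
    | succ k ih =>
      filter_upwards [ih, hc (k + 1)] with n hn hn' j hj
      rcases Nat.lt_or_ge j (k + 1) with h | h
      · exact hn j (Nat.lt_succ_iff.mp h)
      · obtain rfl : j = k + 1 := le_antisymm hj h
        exact hn'
  have hne : ∀ k : ℕ, ∃ n : ℕ, ∀ j ≤ k,
      (Submodule.Quotient.mk (a n) : X ⧸ (I ^ j • ⊤ : Submodule R X)) = c j :=
    fun k => (hF k).exists
  choose ν hν using hne
  obtain ⟨L, hL⟩ := hP.prec' (f := fun k => a (ν k)) (by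
    intro j k hjk
    rw [SModEq]
    rw [hν j j le_rfl, hν k j hjk])
  refine ⟨L, fun k => ?_⟩
  filter_upwards [hc k] with n hn
  rw [near_iff_mk, hn, ← hν k k le_rfl]
  exact hL k

/-- The ultralimit of a sequence. -/
noncomputable def ulim [AdicCompact I X] (a : ℕ → X) : X := Classical.choose (exists_ulim I a)

theorem ulim_spec [AdicCompact I X] (a : ℕ → X) (k : ℕ) :
    ∀ᶠ n in (𝔘 : Filter ℕ), Near I k (a n) (ulim I a) :=
  Classical.choose_spec (exists_ulim I a) k

theorem ulim_eq [AdicCompact I X] {a : ℕ → X} {x : X}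
    (h : ∀ k, ∀ᶠ n in (𝔘 : Filter ℕ), Near I k (a n) x) : ulim I a = x := by
  apply eq_of_forall_near (I := I)
  intro k
  obtain ⟨n, h1, h2⟩ := ((ulim_spec I a k).and (h k)).exists
  exact h1.symm.trans h2

theorem ulim_const [AdicCompact I X] (x : X) : ulim I (fun _ => x) = x :=
  ulim_eq I fun k => Eventually.of_forall fun _ => Near.refl k x

theorem ulim_add [AdicCompact I X] (a b : ℕ → X) :
    ulim I (fun n => a n + b n) = ulim I a + ulim I b :=
  ulim_eq I fun k => by
    filter_upwards [ulim_spec I a k, ulim_spec I b k] with n h1 h2 using h1.add h2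

theorem ulim_neg [AdicCompact I X] (a : ℕ → X) : ulim I (fun n => - a n) = - ulim I a :=
  ulim_eq I fun k => by
    filter_upwards [ulim_spec I a k] with n h1 using h1.neg

theorem ulim_sub [AdicCompact I X] (a b : ℕ → X) :
    ulim I (fun n => a n - b n) = ulim I a - ulim I b :=
  ulim_eq I fun k => by
    filter_upwards [ulim_spec I a k, ulim_spec I b k] with n h1 h2 using h1.sub h2

theorem ulim_zero [AdicCompact I X] : ulim I (fun _ => (0 : X)) = 0 := ulim_const I 0

theorem ulim_sum [AdicCompact I X] {ι : Type*} (s : Finset ι) (a : ι → ℕ → X) :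
    ulim I (fun n => ∑ i ∈ s, a i n) = ∑ i ∈ s, ulim I (a i) :=
  ulim_eq I fun k => by
    have : ∀ᶠ n in (𝔘 : Filter ℕ), ∀ i ∈ s, Near I k (a i n) (ulim I (a i)) := by
      rw [eventually_all_finset]
      exact fun i _ => ulim_spec I (a i) k
    filter_upwards [this] with n hn using near_sum s hn

theorem ulim_const_smul [AdicCompact I X] (c : R) (a : ℕ → X) :
    ulim I (fun n => c • a n) = c • ulim I a :=
  ulim_eq I fun k => by
    filter_upwards [ulim_spec I a k] with n h1 using h1.smul c

/-- Sequences that are eventually close to every order have the same ultralimit. -/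
theorem ulim_congr [AdicCompact I X] {a b : ℕ → X}
    (h : ∀ k, ∀ᶠ n in (𝔘 : Filter ℕ), Near I k (a n) (b n)) : ulim I a = ulim I b :=
  ulim_eq I fun k => by
    filter_upwards [h k, ulim_spec I b k] with n h1 h2 using h1.trans h2

/-- In particular if `a n - b n ∈ I^n X`. -/
theorem ulim_congr_of_near_self [AdicCompact I X] {a b : ℕ → X}
    (h : ∀ n, Near I n (a n) (b n)) : ulim I a = ulim I b :=
  ulim_congr I fun k => by
    filter_upwards [eventually_ge_𝔘 k] with n hn using (h n).mono hn

end Module

section Map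

variable {R : Type*} [CommRing R] (I : Ideal R) {X : Type*} [AddCommGroup X] [Module R X]
variable {R' : Type*} [CommRing R'] (J : Ideal R') {Y : Type*} [AddCommGroup Y] [Module R' Y]

/-- Uniformly continuous maps commute with ultralimits. -/
theorem ulim_map [AdicCompact I X] [AdicCompact J Y] (φ : X → Y)
    (hφ : ∀ k, ∃ k', ∀ x y, Near I k' x y → Near J k (φ x) (φ y)) (a : ℕ → X) :
    φ (ulim I a) = ulim J (fun n => φ (a n)) := by
  symm
  apply ulim_eq
  intro k
  obtain ⟨k', hk'⟩ := hφ k
  filter_upwards [ulim_spec I a k'] with n hn using hk' _ _ hn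

variable {R'' : Type*} [CommRing R''] (K : Ideal R'') {Z : Type*} [AddCommGroup Z] [Module R'' Z]

/-- Uniformly continuous maps of two variables commute with ultralimits. -/
theorem ulim_map₂ [AdicCompact I X] [AdicCompact J Y] [AdicCompact K Z] (β : X → Y → Z)
    (hβ : ∀ k, ∃ k', ∀ x x' y y', Near I k' x x' → Near J k' y y' → Near K k (β x y) (β x' y'))
    (a : ℕ → X) (b : ℕ → Y) :
    β (ulim I a) (ulim J b) = ulim K (fun n => β (a n) (b n)) := by
  symm
  apply ulim_eq
  intro k
  obtain ⟨k', hk'⟩ := hβ k
  filter_upwards [ulim_spec I a k', ulim_spec J b k'] with n hn hn' using hk' _ _ _ _ hn hn'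

end Map

section Ring

variable {A : Type*} [CommRing A] (I : Ideal A)

theorem near_ring_iff {k : ℕ} {x y : A} : Near I k x y ↔ x - y ∈ I ^ k := by
  unfold Near
  rw [smul_eq_mul, Ideal.mul_top]

variable {I}

theorem Near.mul {k : ℕ} {x x' y y' : A} (h : Near I k x x') (h' : Near I k y y') :
    Near I k (x * y) (x' * y') := by
  rw [near_ring_iff] at *
  have e : x * y - x' * y' = x * (y - y') + (x - x') * y' := by ring
  rw [e]
  exact Ideal.add_mem _ (Ideal.mul_mem_left _ _ h') (Ideal.mul_mem_right _ _ h)

variable {X : Type*} [AddCommGroup X] [Module A X]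

theorem Near.smul₂ {k : ℕ} {c c' : A} {x x' : X} (h : Near I k c c') (h' : Near I k x x') :
    Near I k (c • x) (c' • x') := by
  have e : c • x - c' • x' = c • (x - x') + (c - c') • x' := by
    rw [smul_sub, sub_smul]; abel
  unfold Near
  rw [e]
  refine Submodule.add_mem _ (Submodule.smul_mem _ c h') ?_
  rw [near_ring_iff] at h
  exact Submodule.smul_mem_smul h Submodule.mem_top

variable (I)

theorem ulim_mul [AdicCompact I A] (a b : ℕ → A) :
    ulim I (fun n => a n * b n) = ulim I a * ulim I b :=
  (ulim_map₂ I I I (fun x y => x * y) (fun k => ⟨k, fun _ _ _ _ h h' => h.mul h'⟩) a b).symm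

theorem ulim_smul [AdicCompact I A] [AdicCompact I X] (c : ℕ → A) (a : ℕ → X) :
    ulim I (fun n => c n • a n) = ulim I c • ulim I a :=
  (ulim_map₂ I I I (fun (c : A) (x : X) => c • x)
    (fun k => ⟨k, fun _ _ _ _ h h' => h.smul₂ h'⟩) c a).symm

end Ring

end Fermat.Agent.S43lib.Patch
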