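-- Project H (S43), block H-PATCH: instances of `AdicCompact`.
import Mathlib
import Fermat.Prelude.Thm_IsAdicComplete_of_module_finite
import Fermat.Agent.S43lib.Patch.Ulim

set_option autoImplicit false

namespace Fermat.Agent.S43lib.Patch

open IsLocalRing

section

variable (A : Type*) [CommRing A] [IsLocalRing A] [IsNoetherianRing A]
  [IsAdicComplete (maximalIdeal A) A] [Finite (ResidueField A)]

theorem finite_quotient_maximalIdeal_pow (k : ℕ) : Finite (A ⧸ maximalIdeal A ^ k) :=
  IsLocalRing.finite_quotient_iff.mpr ⟨k, le_rfl⟩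

/-- Finitely generated modules over a complete Noetherian local ring with finite residue field are
adically compact. -/
theorem adicCompact_of_finite (X : Type*) [AddCommGroup X] [Module A X] [Module.Finite A X] :
    AdicCompact (maximalIdeal A) X := by
  refine ⟨IsAdicComplete.of_module_finite (maximalIdeal A) X, fun k => ?_⟩
  obtain ⟨g, φ, hφ⟩ := Module.Finite.exists_fin' A X
  have hfin : Finite (A ⧸ maximalIdeal A ^ k) := finite_quotient_maximalIdeal_pow A k
  have hfin' : Finite (Fin g → A ⧸ maximalIdeal A ^ k) := inferInstance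
  let f : (Fin g → A ⧸ maximalIdeal A ^ k) → X ⧸ (maximalIdeal A ^ k • ⊤ : Submodule A X) :=
    fun c => Submodule.Quotient.mk (φ fun i => (c i).out)
  refine Finite.of_surjective f ?_
  intro y
  obtain ⟨x, rfl⟩ := Submodule.Quotient.mk_surjective _ y
  obtain ⟨c, rfl⟩ := hφ x
  refine ⟨fun i => Ideal.Quotient.mk _ (c i), ?_⟩
  change Submodule.Quotient.mk (φ fun i => (Ideal.Quotient.mk (maximalIdeal A ^ k) (c i)).out) = _
  rw [Submodule.Quotient.eq, ← map_sub]
  have hδ : ∀ i, (Ideal.Quotient.mk (maximalIdeal A ^ k) (c i)).out - c i ∈ maximalIdeal A ^ k := by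
    intro i
    rw [← Ideal.Quotient.eq]
    exact Quotient.out_eq _
  have e : ((fun i => (Ideal.Quotient.mk (maximalIdeal A ^ k) (c i)).out) - c) =
      ∑ i, ((Ideal.Quotient.mk (maximalIdeal A ^ k) (c i)).out - c i) • (Pi.single i (1 : A) : Fin g → A) := by
    ext j
    simp [Finset.sum_apply, Pi.single_apply]
  rw [e, map_sum]
  refine Submodule.sum_mem _ fun i _ => ?_
  rw [map_smul]
  exact Submodule.smul_mem_smul (hδ i) Submodule.mem_top

instance adicCompact_self : AdicCompact (maximalIdeal A) A := adicCompact_of_finite A A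

instance adicCompact_pi (d : ℕ) : AdicCompact (maximalIdeal A) (Fin d → A) :=
  adicCompact_of_finite A (Fin d → A)

end

end Fermat.Agent.S43lib.Patch
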