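-- Project H (S43), block H-PATCH: one patching level in coordinates.
--
-- For a patching level `L` of depth `n`: the parametrisation `Φ : S^d → M`, `c ↦ ∑ s(c i) • b i`
-- (surjective, `Φ c = 0 → c ∈ 𝔪_S^n S^d`), matrices `act r : S^d → S^d` of the elements `r : P`
-- (`Φ (act r c) = r • Φ c`), and the base map `v ∘ Φ : S^d → M0`.
import Mathlib
import Fermat.Agent.TeamA.MvPS
import Fermat.Agent.S43lib.Patch.Defs
import Fermat.Agent.S43lib.Patch.Ulim

set_option autoImplicit false

namespace Fermat.Agent.S43lib.Patch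

open IsLocalRing MvPowerSeries Fermat.Agent.TeamA

section PiLemmas

variable {A : Type*} [CommRing A] {d : ℕ}

theorem pi_eq_sum_single (c : Fin d → A) : c = ∑ i, c i • (Pi.single i (1 : A) : Fin d → A) := by
  ext j
  simp [Finset.sum_apply, Pi.single_apply]

theorem mem_smul_top_pi_iff (J : Ideal A) (c : Fin d → A) :
    c ∈ (J • ⊤ : Submodule A (Fin d → A)) ↔ ∀ i, c i ∈ J := by
  constructor
  · intro h
    refine Submodule.smul_induction_on h ?_ ?_
    · intro r hr x _ i
      rw [Pi.smul_apply, smul_eq_mul]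
      exact Ideal.mul_mem_right _ _ hr
    · intro x y hx hy i
      rw [Pi.add_apply]
      exact Ideal.add_mem _ (hx i) (hy i)
  · intro h
    rw [pi_eq_sum_single c]
    exact Submodule.sum_mem _ fun i _ => Submodule.smul_mem_smul (h i) Submodule.mem_top

theorem near_pi_iff (J : Ideal A) (k : ℕ) (c c' : Fin d → A) :
    Near J k c c' ↔ ∀ i, c i - c' i ∈ J ^ k := by
  unfold Near
  rw [mem_smul_top_pi_iff]
  rfl

end PiLemmas

variable {Λ : Type} [CommRing Λ] [IsLocalRing Λ] {m d : ℕ} {P : Type} [CommRing P] [IsLocalRing P]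
  [Algebra Λ P] {T0 : Type} [CommRing T0] [Algebra Λ T0] {M0 : Type} [AddCommGroup M0]
  [Module T0 M0] {n : ℕ} (L : PatchLevel Λ m d P T0 M0 n)

namespace PatchLevel

/-- The parametrisation `S^d → M`. -/
noncomputable def Φ (c : Fin d → MvPowerSeries (Fin m) Λ) : L.M := ∑ i, L.s (c i) • L.b i

theorem Φ_add (c c' : Fin d → MvPowerSeries (Fin m) Λ) : L.Φ (c + c') = L.Φ c + L.Φ c' := by
  unfold Φ
  rw [← Finset.sum_add_distrib]
  refine Finset.sum_congr rfl fun i _ => ?_
  rw [Pi.add_apply, map_add, add_smul]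

theorem Φ_zero : L.Φ 0 = 0 := by
  unfold Φ
  simp

theorem Φ_smul (f : MvPowerSeries (Fin m) Λ) (c : Fin d → MvPowerSeries (Fin m) Λ) :
    L.Φ (f • c) = L.s f • L.Φ c := by
  unfold Φ
  rw [Finset.smul_sum]
  refine Finset.sum_congr rfl fun i _ => ?_
  rw [Pi.smul_apply, smul_eq_mul, map_mul, mul_smul]

theorem Φ_neg (c : Fin d → MvPowerSeries (Fin m) Λ) : L.Φ (-c) = -L.Φ c := by
  have h := L.Φ_add c (-c)
  rw [add_neg_cancel, Φ_zero] at h
  exact eq_neg_of_add_eq_zero_right h.symm

theorem Φ_sub (c c' : Fin d → MvPowerSeries (Fin m) Λ) : L.Φ (c - c') = L.Φ c - L.Φ c' := by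
  rw [sub_eq_add_neg, Φ_add, Φ_neg, sub_eq_add_neg]

theorem Φ_sum {ι : Type*} (t : Finset ι) (c : ι → Fin d → MvPowerSeries (Fin m) Λ) :
    L.Φ (∑ j ∈ t, c j) = ∑ j ∈ t, L.Φ (c j) := by
  classical
  induction t using Finset.induction_on with
  | empty => simp [Φ_zero]
  | insert a t ha ih => rw [Finset.sum_insert ha, Finset.sum_insert ha, Φ_add, ih]

theorem Φ_surjective : Function.Surjective L.Φ := fun x => by
  obtain ⟨c, hc⟩ := L.b_span x
  exact ⟨c, hc.symm⟩

theorem Φ_single (i : Fin d) : L.Φ (Pi.single i 1) = L.b i := by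
  classical
  unfold Φ
  rw [Finset.sum_eq_single i]
  · rw [Pi.single_eq_same, map_one, one_smul]
  · intro j _ hj
    rw [Pi.single_eq_of_ne hj, map_zero, zero_smul]
  · intro h
    exact absurd (Finset.mem_univ i) h

/-- The relations are `𝔪^n`-small. -/
theorem near_of_Φ_eq {c c' : Fin d → MvPowerSeries (Fin m) Λ} (h : L.Φ c = L.Φ c') :
    Near (maximalIdeal (MvPowerSeries (Fin m) Λ)) n c c' := by
  rw [near_pi_iff]
  intro i
  have h0 : L.Φ (c - c') = 0 := by rw [Φ_sub, h, sub_self]
  exact L.b_rel (c - c') h0 i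

/-- A column of the matrix of `r`. -/
noncomputable def col (r : P) (j : Fin d) : Fin d → MvPowerSeries (Fin m) Λ :=
  Classical.choose (L.Φ_surjective (r • L.b j))

theorem Φ_col (r : P) (j : Fin d) : L.Φ (L.col r j) = r • L.b j :=
  Classical.choose_spec (L.Φ_surjective (r • L.b j))

/-- The matrix of `r` acting on coordinate vectors. -/
noncomputable def act (r : P) (c : Fin d → MvPowerSeries (Fin m) Λ) :
    Fin d → MvPowerSeries (Fin m) Λ := ∑ j, c j • L.col r j

theorem Φ_act (r : P) (c : Fin d → MvPowerSeries (Fin m) Λ) : L.Φ (L.act r c) = r • L.Φ c := by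
  unfold act
  rw [Φ_sum]
  conv_rhs => rw [Φ, Finset.smul_sum]
  refine Finset.sum_congr rfl fun j _ => ?_
  rw [Φ_smul, Φ_col, smul_comm]

theorem act_add (r : P) (c c' : Fin d → MvPowerSeries (Fin m) Λ) :
    L.act r (c + c') = L.act r c + L.act r c' := by
  unfold act
  rw [← Finset.sum_add_distrib]
  refine Finset.sum_congr rfl fun j _ => ?_
  rw [Pi.add_apply, add_smul]

theorem act_smul (r : P) (f : MvPowerSeries (Fin m) Λ) (c : Fin d → MvPowerSeries (Fin m) Λ) :
    L.act r (f • c) = f • L.act r c := by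
  unfold act
  rw [Finset.smul_sum]
  refine Finset.sum_congr rfl fun j _ => ?_
  rw [Pi.smul_apply, smul_eq_mul, mul_smul]

theorem act_zero (r : P) : L.act r 0 = 0 := by
  unfold act
  simp

theorem act_sub (r : P) (c c' : Fin d → MvPowerSeries (Fin m) Λ) :
    L.act r (c - c') = L.act r c - L.act r c' := by
  have h := L.act_add r (c - c') c'
  rw [sub_add_cancel] at h
  rw [h, add_sub_cancel_right]

/-- `act r` is `𝔪`-adically uniformly continuous. -/
theorem act_near (r : P) {k : ℕ} {c c' : Fin d → MvPowerSeries (Fin m) Λ}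
    (h : Near (maximalIdeal (MvPowerSeries (Fin m) Λ)) k c c') :
    Near (maximalIdeal (MvPowerSeries (Fin m) Λ)) k (L.act r c) (L.act r c') := by
  unfold Near at *
  rw [← act_sub]
  have hmem : ∀ x ∈ (maximalIdeal (MvPowerSeries (Fin m) Λ) ^ k • ⊤ :
      Submodule (MvPowerSeries (Fin m) Λ) (Fin d → MvPowerSeries (Fin m) Λ)),
      L.act r x ∈ (maximalIdeal (MvPowerSeries (Fin m) Λ) ^ k • ⊤ :
        Submodule (MvPowerSeries (Fin m) Λ) (Fin d → MvPowerSeries (Fin m) Λ)) := by
    intro x hx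
    refine Submodule.smul_induction_on hx ?_ ?_
    · intro f hf y _
      rw [act_smul]
      exact Submodule.smul_mem_smul hf Submodule.mem_top
    · intro x y hx hy
      rw [act_add]
      exact Submodule.add_mem _ hx hy
  exact hmem _ h

end PatchLevel

end Fermat.Agent.S43lib.Patch
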