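-- Project H (S43), block H-PATCH: the limit action of `P` on `S^d`.
import Mathlib
import Fermat.Agent.TeamA.MvPS
import Fermat.Agent.S43lib.Patch.Defs
import Fermat.Agent.S43lib.Patch.Ulim
import Fermat.Agent.S43lib.Patch.Compact
import Fermat.Agent.S43lib.Patch.Level

set_option autoImplicit false

namespace Fermat.Agent.S43lib.Patch

open IsLocalRing MvPowerSeries Fermat.Agent.TeamA Filter

variable {Λ : Type} [CommRing Λ] [IsLocalRing Λ] [IsNoetherianRing Λ]
  [IsAdicComplete (maximalIdeal Λ) Λ] [Finite (ResidueField Λ)] {m d : ℕ}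
  {P : Type} [CommRing P] [IsLocalRing P] [Algebra Λ P]
  {T0 : Type} [CommRing T0] [Algebra Λ T0] {M0 : Type} [AddCommGroup M0] [Module T0 M0]
  (L : ∀ n : ℕ, PatchLevel Λ m d P T0 M0 n)

local notation "𝔪S" => maximalIdeal (MvPowerSeries (Fin m) Λ)

/-- The limit action of `r : P` on coordinate vectors. -/
noncomputable def A (r : P) (c : Fin d → MvPowerSeries (Fin m) Λ) :
    Fin d → MvPowerSeries (Fin m) Λ :=
  ulim 𝔪S (fun n => (L n).act r c)

theorem A_spec (r : P) (c : Fin d → MvPowerSeries (Fin m) Λ) (k : ℕ) :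
    ∀ᶠ n in (𝔘 : Filter ℕ), Near 𝔪S k ((L n).act r c) (A L r c) :=
  ulim_spec 𝔪S _ k

theorem A_add_vec (r : P) (c c' : Fin d → MvPowerSeries (Fin m) Λ) :
    A L r (c + c') = A L r c + A L r c' := by
  unfold A
  rw [← ulim_add]
  congr 1
  funext n
  exact (L n).act_add r c c'

theorem A_smul_vec (r : P) (f : MvPowerSeries (Fin m) Λ) (c : Fin d → MvPowerSeries (Fin m) Λ) :
    A L r (f • c) = f • A L r c := by
  unfold A
  rw [← ulim_const_smul]
  congr 1
  funext n
  exact (L n).act_smul r f c

theorem A_zero_vec (r : P) : A L r 0 = 0 := by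
  have h := A_add_vec L r 0 0
  rw [add_zero] at h
  exact left_eq_add.mp h

theorem A_sub_vec (r : P) (c c' : Fin d → MvPowerSeries (Fin m) Λ) :
    A L r (c - c') = A L r c - A L r c' := by
  have h := A_add_vec L r (c - c') c'
  rw [sub_add_cancel] at h
  rw [h, add_sub_cancel_right]

theorem A_near_vec (r : P) {k : ℕ} {c c' : Fin d → MvPowerSeries (Fin m) Λ}
    (h : Near 𝔪S k c c') : Near 𝔪S k (A L r c) (A L r c') := by
  unfold Near at *
  rw [← A_sub_vec]
  have hmem : ∀ x ∈ (𝔪S ^ k • ⊤ :
      Submodule (MvPowerSeries (Fin m) Λ) (Fin d → MvPowerSeries (Fin m) Λ)),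
      A L r x ∈ (𝔪S ^ k • ⊤ :
        Submodule (MvPowerSeries (Fin m) Λ) (Fin d → MvPowerSeries (Fin m) Λ)) := by
    intro x hx
    refine Submodule.smul_induction_on hx ?_ ?_
    · intro f hf y _
      rw [A_smul_vec]
      exact Submodule.smul_mem_smul hf Submodule.mem_top
    · intro x y hx hy
      rw [A_add_vec]
      exact Submodule.add_mem _ hx hy
  exact hmem _ h

theorem A_add_ring (r r' : P) (c : Fin d → MvPowerSeries (Fin m) Λ) :
    A L (r + r') c = A L r c + A L r' c := by
  unfold A
  rw [← ulim_add]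
  apply ulim_congr_of_near_self
  intro n
  apply (L n).near_of_Φ_eq
  rw [(L n).Φ_add, (L n).Φ_act, (L n).Φ_act, (L n).Φ_act, add_smul]

theorem A_zero_ring (c : Fin d → MvPowerSeries (Fin m) Λ) : A L 0 c = 0 := by
  have h := A_add_ring L 0 0 c
  rw [add_zero] at h
  exact left_eq_add.mp h

theorem A_one (c : Fin d → MvPowerSeries (Fin m) Λ) : A L 1 c = c := by
  unfold A
  apply ulim_eq
  intro k
  filter_upwards [eventually_ge_𝔘 k] with n hn
  refine Near.mono hn ((L n).near_of_Φ_eq ?_)
  rw [(L n).Φ_act, one_smul]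

theorem A_mul (r r' : P) (c : Fin d → MvPowerSeries (Fin m) Λ) :
    A L (r * r') c = A L r (A L r' c) := by
  apply ulim_congr
  intro k
  filter_upwards [eventually_ge_𝔘 k, A_spec L r' c k] with n hn hn'
  have h1 : Near 𝔪S n ((L n).act (r * r') c) ((L n).act r ((L n).act r' c)) := by
    apply (L n).near_of_Φ_eq
    rw [(L n).Φ_act, (L n).Φ_act, (L n).Φ_act, mul_smul]
  exact (h1.mono hn).trans ((L n).act_near r hn')

/-- The patched module: `S^d` with the limit action of `P`. -/
def PM (_L : ∀ n : ℕ, PatchLevel Λ m d P T0 M0 n) : Type := Fin d → MvPowerSeries (Fin m) Λ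

noncomputable instance : AddCommGroup (PM L) :=
  inferInstanceAs (AddCommGroup (Fin d → MvPowerSeries (Fin m) Λ))

noncomputable instance : Module (MvPowerSeries (Fin m) Λ) (PM L) :=
  inferInstanceAs (Module (MvPowerSeries (Fin m) Λ) (Fin d → MvPowerSeries (Fin m) Λ))

noncomputable instance : Module P (PM L) where
  smul r c := A L r c
  one_smul c := A_one L c
  mul_smul r r' c := A_mul L r r' c
  smul_zero r := A_zero_vec L r
  smul_add r c c' := A_add_vec L r c c'
  add_smul r r' c := A_add_ring L r r' c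
  zero_smul c := A_zero_ring L c

theorem PM_smul_def (r : P) (c : PM L) : r • c = A L r c := rfl

instance : SMulCommClass P (MvPowerSeries (Fin m) Λ) (PM L) where
  smul_comm r f c := by
    change A L r (f • c) = f • A L r c
    exact A_smul_vec L r f c

end Fermat.Agent.S43lib.Patch
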