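-- Project H (S43), block H-PATCH: a finite module over a local ring is killed by `𝔪 ^ (card)`.
import Mathlib

set_option autoImplicit false

namespace Fermat.Agent.S43lib.Patch

open IsLocalRing

variable {P : Type*} [CommRing P] [IsLocalRing P] {N : Type*} [AddCommGroup N] [Module P N]

theorem Submodule.fg_of_finite' [Finite N] (W : Submodule P N) : W.FG := by
  have : Module.Finite P W := Module.Finite.of_finite
  exact Submodule.FG.of_finite

theorem pow_smul_top_eq_bot_or_card_le [Finite N] (j : ℕ) :
    (maximalIdeal P ^ j • (⊤ : Submodule P N)) = ⊥ ∨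
      Nat.card (maximalIdeal P ^ j • (⊤ : Submodule P N) : Submodule P N) + j ≤ Nat.card N := by
  induction j with
  | zero =>
    right
    rw [pow_zero, Ideal.one_eq_top, Submodule.top_smul, add_zero]
    exact le_of_eq (Nat.card_congr (Submodule.topEquiv (R := P) (M := N)).toEquiv)
  | succ j ih =>
    have hstep : maximalIdeal P ^ (j + 1) • (⊤ : Submodule P N) =
        maximalIdeal P • (maximalIdeal P ^ j • (⊤ : Submodule P N)) := by
      rw [pow_succ', Submodule.mul_smul]
    rcases ih with h0 | hcard
    · left
      rw [hstep, h0, Submodule.smul_bot]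
    · by_cases heq : maximalIdeal P • (maximalIdeal P ^ j • (⊤ : Submodule P N)) =
          maximalIdeal P ^ j • (⊤ : Submodule P N)
      · left
        rw [hstep, heq]
        refine Submodule.eq_bot_of_le_smul_of_le_jacobson_bot (maximalIdeal P) _ ?_ (le_of_eq heq.symm)
          (IsLocalRing.maximalIdeal_le_jacobson _)
        exact Submodule.fg_of_finite' _
      · right
        have hle : maximalIdeal P • (maximalIdeal P ^ j • (⊤ : Submodule P N)) ≤
            maximalIdeal P ^ j • (⊤ : Submodule P N) := Submodule.smul_le_right
        have hlt : maximalIdeal P • (maximalIdeal P ^ j • (⊤ : Submodule P N)) <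
            maximalIdeal P ^ j • (⊤ : Submodule P N) := lt_of_le_of_ne hle heq
        have hcardlt : Nat.card (maximalIdeal P • (maximalIdeal P ^ j • (⊤ : Submodule P N)) :
            Submodule P N) < Nat.card (maximalIdeal P ^ j • (⊤ : Submodule P N) : Submodule P N) := by
          have hss : (↑(maximalIdeal P • (maximalIdeal P ^ j • (⊤ : Submodule P N))) : Set N) ⊂
              ↑(maximalIdeal P ^ j • (⊤ : Submodule P N)) := hlt
          exact Set.ncard_lt_ncard hss (Set.toFinite _)
        rw [hstep]
        omega

/-- A finite module over a local ring is killed by `𝔪 ^ card`. -/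
theorem maximalIdeal_pow_card_smul_top [Finite N] :
    (maximalIdeal P ^ Nat.card N • (⊤ : Submodule P N)) = ⊥ := by
  rcases pow_smul_top_eq_bot_or_card_le (P := P) (N := N) (Nat.card N) with h | h
  · exact h
  · have hpos : 0 < Nat.card (maximalIdeal P ^ Nat.card N • (⊤ : Submodule P N) : Submodule P N) :=
      Nat.card_pos
    omega

/-- Variant: any exponent at least the cardinality. -/
theorem maximalIdeal_pow_smul_top_of_card_le [Finite N] {c : ℕ} (hc : Nat.card N ≤ c) :
    (maximalIdeal P ^ c • (⊤ : Submodule P N)) = ⊥ := by
  rw [eq_bot_iff, ← maximalIdeal_pow_card_smul_top (P := P) (N := N)]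
  exact Submodule.smul_mono_left (Ideal.pow_le_pow_right hc)

end Fermat.Agent.S43lib.Patch
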