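-- Project H (S43), block H-PATCH: high powers of `𝔪_P` act `𝔪_S`-adically small on a patching level.
import Mathlib
import Fermat.Agent.TeamA.MvPS
import Fermat.Agent.S43lib.Patch.Defs
import Fermat.Agent.S43lib.Patch.Level
import Fermat.Agent.S43lib.Patch.Nak

set_option autoImplicit false

namespace Fermat.Agent.S43lib.Patch

open IsLocalRing MvPowerSeries Fermat.Agent.TeamA

variable {Λ : Type} [CommRing Λ] [IsLocalRing Λ] {m d : ℕ} {P : Type} [CommRing P] [IsLocalRing P]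
  [Algebra Λ P] {T0 : Type} [CommRing T0] [Algebra Λ T0] {M0 : Type} [AddCommGroup M0]
  [Module T0 M0] {n : ℕ} (L : PatchLevel Λ m d P T0 M0 n)

namespace PatchLevel

local notation "𝔪S" => maximalIdeal (MvPowerSeries (Fin m) Λ)

/-- Elements of `s(J) P` act through coordinate vectors with entries in `J`. -/
theorem exists_Φ_of_mem_map (J : Ideal (MvPowerSeries (Fin m) Λ)) {a : P}
    (ha : a ∈ Ideal.map L.s J) (y : L.M) :
    ∃ c' : Fin d → MvPowerSeries (Fin m) Λ, (∀ j, c' j ∈ J) ∧ a • y = L.Φ c' := by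
  revert y
  unfold Ideal.map at ha
  refine Submodule.span_induction (p := fun a _ => ∀ y : L.M,
    ∃ c' : Fin d → MvPowerSeries (Fin m) Λ, (∀ j, c' j ∈ J) ∧ a • y = L.Φ c') ?_ ?_ ?_ ?_ ha
  · rintro _ ⟨f, hf, rfl⟩ y
    obtain ⟨c'', rfl⟩ := L.Φ_surjective y
    refine ⟨f • c'', fun j => ?_, ?_⟩
    · rw [Pi.smul_apply, smul_eq_mul]
      exact Ideal.mul_mem_right _ _ hf
    · exact (L.Φ_smul f c'').symm
  · intro y
    exact ⟨0, fun j => Ideal.zero_mem _, by rw [zero_smul, Φ_zero]⟩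
  · intro a₁ a₂ _ _ h₁ h₂ y
    obtain ⟨c₁, hc₁, e₁⟩ := h₁ y
    obtain ⟨c₂, hc₂, e₂⟩ := h₂ y
    exact ⟨c₁ + c₂, fun j => Ideal.add_mem _ (hc₁ j) (hc₂ j), by rw [add_smul, e₁, e₂, Φ_add]⟩
  · intro p a₁ _ h₁ y
    obtain ⟨c₁, hc₁, e₁⟩ := h₁ (p • y)
    refine ⟨c₁, hc₁, ?_⟩
    rw [← e₁, smul_eq_mul, mul_smul, smul_comm]

theorem exists_Φ_of_mem_map_smul_top (J : Ideal (MvPowerSeries (Fin m) Λ)) {x : L.M}
    (hx : x ∈ (Ideal.map L.s J) • (⊤ : Submodule P L.M)) :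
    ∃ c' : Fin d → MvPowerSeries (Fin m) Λ, (∀ j, c' j ∈ J) ∧ x = L.Φ c' := by
  refine Submodule.smul_induction_on hx ?_ ?_
  · intro a ha y _
    exact L.exists_Φ_of_mem_map J ha y
  · intro x y ⟨c₁, hc₁, e₁⟩ ⟨c₂, hc₂, e₂⟩
    exact ⟨c₁ + c₂, fun j => Ideal.add_mem _ (hc₁ j) (hc₂ j), by rw [e₁, e₂, Φ_add]⟩

theorem Φ_mem_map_smul_top (J : Ideal (MvPowerSeries (Fin m) Λ))
    {c : Fin d → MvPowerSeries (Fin m) Λ} (hc : ∀ j, c j ∈ J) :
    L.Φ c ∈ (Ideal.map L.s J) • (⊤ : Submodule P L.M) := by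
  unfold Φ
  exact Submodule.sum_mem _ fun i _ =>
    Submodule.smul_mem_smul (Ideal.mem_map_of_mem _ (hc i)) Submodule.mem_top

variable [IsNoetherianRing Λ] [Finite (ResidueField Λ)]

/-- The bound: the number of elements of `(S / 𝔪_S^k)^d`. -/
noncomputable def bound (_L : PatchLevel Λ m d P T0 M0 n) (k : ℕ) : ℕ :=
  Nat.card (Fin d → MvPowerSeries (Fin m) Λ ⧸ 𝔪S ^ k)

theorem finite_quot_and_card_le (k : ℕ) :
    Finite (L.M ⧸ (Ideal.map L.s (𝔪S ^ k)) • (⊤ : Submodule P L.M)) ∧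
      Nat.card (L.M ⧸ (Ideal.map L.s (𝔪S ^ k)) • (⊤ : Submodule P L.M)) ≤ L.bound k := by
  have hfin : Finite (MvPowerSeries (Fin m) Λ ⧸ 𝔪S ^ k) :=
    finite_quotient_maximalIdeal_pow_mvPowerSeries (Fin m) Λ k
  have hfin' : Finite (Fin d → MvPowerSeries (Fin m) Λ ⧸ 𝔪S ^ k) := inferInstance
  let g : (Fin d → MvPowerSeries (Fin m) Λ ⧸ 𝔪S ^ k) →
      L.M ⧸ (Ideal.map L.s (𝔪S ^ k)) • (⊤ : Submodule P L.M) :=
    fun c => Submodule.Quotient.mk (L.Φ fun i => (c i).out)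
  have hg : Function.Surjective g := by
    intro y
    obtain ⟨x, rfl⟩ := Submodule.Quotient.mk_surjective _ y
    obtain ⟨c, rfl⟩ := L.Φ_surjective x
    refine ⟨fun i => Ideal.Quotient.mk _ (c i), ?_⟩
    change Submodule.Quotient.mk (L.Φ fun i => (Ideal.Quotient.mk (𝔪S ^ k) (c i)).out) = _
    rw [Submodule.Quotient.eq, ← Φ_sub]
    apply L.Φ_mem_map_smul_top
    intro j
    rw [Pi.sub_apply, ← Ideal.Quotient.eq]
    exact Quotient.out_eq _
  exact ⟨Finite.of_surjective g hg, Nat.card_le_card_of_surjective g hg⟩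

/-- Elements of `𝔪_P ^ bound k` act `𝔪_S^k`-small. -/
theorem exists_small_of_mem_pow (k : ℕ) {r : P} (hr : r ∈ maximalIdeal P ^ L.bound k) (x : L.M) :
    ∃ c' : Fin d → MvPowerSeries (Fin m) Λ, (∀ j, c' j ∈ 𝔪S ^ k) ∧ r • x = L.Φ c' := by
  obtain ⟨hfin, hcard⟩ := L.finite_quot_and_card_le k
  have hbot := maximalIdeal_pow_smul_top_of_card_le (P := P)
    (N := L.M ⧸ (Ideal.map L.s (𝔪S ^ k)) • (⊤ : Submodule P L.M)) hcard
  have hmem : r • (Submodule.Quotient.mk x :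
      L.M ⧸ (Ideal.map L.s (𝔪S ^ k)) • (⊤ : Submodule P L.M)) ∈
      (maximalIdeal P ^ L.bound k • (⊤ : Submodule P _)) :=
    Submodule.smul_mem_smul hr Submodule.mem_top
  rw [hbot, Submodule.mem_bot, ← Submodule.Quotient.mk_smul, Submodule.Quotient.mk_eq_zero] at hmem
  exact L.exists_Φ_of_mem_map_smul_top _ hmem

end PatchLevel

end Fermat.Agent.S43lib.Patch
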