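-- Project H (S43), block H-PATCH: the limit `S`-structure `s∞ : S → P` and `s∞ f • c = f • c`.
import Mathlib
import Fermat.Agent.TeamA.MvPS
import Fermat.Agent.S56lib.Dict.PowerSeriesSurj
import Fermat.Agent.S43lib.Patch.Limit
import Fermat.Agent.S43lib.Patch.Small

set_option autoImplicit false

namespace Fermat.Agent.S43lib.Patch

open IsLocalRing MvPowerSeries Fermat.Agent.TeamA Filter

variable {Λ : Type} [CommRing Λ] [IsLocalRing Λ] [IsNoetherianRing Λ]
  [IsAdicComplete (maximalIdeal Λ) Λ] [Finite (ResidueField Λ)] {m d : ℕ}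
  {P : Type} [CommRing P] [IsLocalRing P] [IsNoetherianRing P]
  [IsAdicComplete (maximalIdeal P) P] [Finite (ResidueField P)] [Algebra Λ P]
  {T0 : Type} [CommRing T0] [Algebra Λ T0] {M0 : Type} [AddCommGroup M0] [Module T0 M0]
  (L : ∀ n : ℕ, PatchLevel Λ m d P T0 M0 n)

local notation "𝔪S" => maximalIdeal (MvPowerSeries (Fin m) Λ)
local notation "𝔪P" => maximalIdeal P

/-- The limit of the images of the variables. -/
noncomputable def σ (i : Fin m) : P := ulim 𝔪P (fun n => (L n).s (X i))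

theorem σ_spec (i : Fin m) (k : ℕ) :
    ∀ᶠ n in (𝔘 : Filter ℕ), Near 𝔪P k ((L n).s (X i)) (σ L i) := ulim_spec 𝔪P _ k

theorem σ_mem (i : Fin m) : σ L i ∈ 𝔪P := by
  obtain ⟨n, hn⟩ := (σ_spec L i 1).exists
  rw [near_ring_iff, pow_one] at hn
  have h := Ideal.sub_mem _ ((L n).s_X_mem i) hn
  rwa [sub_sub_cancel] at h

/-- The limit `S`-structure. -/
noncomputable def sInf : MvPowerSeries (Fin m) Λ →ₐ[Λ] P :=
  Classical.choose (Fermat.Agent.S56lib.Dict.exists_eval (𝒪 := Λ) (σ L) (σ_mem L))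

theorem sInf_X (i : Fin m) : sInf L (X i) = σ L i :=
  Classical.choose_spec (Fermat.Agent.S56lib.Dict.exists_eval (𝒪 := Λ) (σ L) (σ_mem L)) i

/-- `s∞` and `s_n` agree modulo `𝔪_P^C` for `𝔘`-almost all `n`. -/
theorem sInf_near (C : ℕ) :
    ∀ᶠ n in (𝔘 : Filter ℕ), ∀ f : MvPowerSeries (Fin m) Λ, sInf L f - (L n).s f ∈ 𝔪P ^ C := by
  have hall : ∀ᶠ n in (𝔘 : Filter ℕ), ∀ i : Fin m, Near 𝔪P C ((L n).s (X i)) (σ L i) := by
    rw [eventually_all]
    exact fun i => σ_spec L i C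
  filter_upwards [hall] with n hn f
  have hext : (Ideal.Quotient.mkₐ Λ (𝔪P ^ C)).comp (sInf L) =
      (Ideal.Quotient.mkₐ Λ (𝔪P ^ C)).comp (L n).s := by
    refine algHom_ext_of_nilpotent ((𝔪P).map (Ideal.Quotient.mk (𝔪P ^ C))) C
      (Fermat.Agent.S56lib.Dict.map_mk_maximalIdeal_pow_eq_bot C) _ _ ?_ ?_
    · intro i
      rw [AlgHom.comp_apply, sInf_X]
      exact Ideal.mem_map_of_mem _ (σ_mem L i)
    · intro i
      rw [AlgHom.comp_apply, AlgHom.comp_apply, sInf_X, Ideal.Quotient.mkₐ_eq_mk,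
        Ideal.Quotient.eq]
      have := (hn i).symm
      rwa [near_ring_iff] at this
  have := congrArg (fun φ => φ f) hext
  simp only [AlgHom.comp_apply, Ideal.Quotient.mkₐ_eq_mk] at this
  rwa [Ideal.Quotient.eq] at this

/-- **`S` acts on the patched module through `s∞`.** -/
theorem A_sInf (f : MvPowerSeries (Fin m) Λ) (c : Fin d → MvPowerSeries (Fin m) Λ) :
    A L (sInf L f) c = f • c := by
  unfold A
  apply ulim_eq
  intro k
  -- the bound does not depend on the level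
  have hb : ∀ n, (L n).bound k = (L 0).bound k := fun n => rfl
  filter_upwards [eventually_ge_𝔘 k, sInf_near L ((L 0).bound k)] with n hn hn'
  obtain ⟨c', hc', e'⟩ := (L n).exists_small_of_mem_pow k (r := sInf L f - (L n).s f)
    (by rw [hb n]; exact hn' f) ((L n).Φ c)
  have h1 : Near 𝔪S n ((L n).act (sInf L f) c) (f • c + c') := by
    apply (L n).near_of_Φ_eq
    rw [(L n).Φ_act, (L n).Φ_add, (L n).Φ_smul, ← e', sub_smul]
    abel
  have h2 : Near 𝔪S k (f • c + c') (f • c) := by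
    rw [near_pi_iff]
    intro j
    rw [Pi.add_apply, add_sub_cancel_left]
    exact hc' j
  exact (h1.mono hn).trans h2

theorem PM_sInf_smul (f : MvPowerSeries (Fin m) Λ) (c : PM L) : sInf L f • c = f • c :=
  A_sInf L f c

end Fermat.Agent.S43lib.Patch
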