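-- Project H (S43), block H-PATCH: the base level of the patched module (`e∞`, `v∞`).
import Mathlib
import Fermat.Agent.TeamA.MvPS
import Fermat.Agent.S43lib.Patch.SInf

set_option autoImplicit false

namespace Fermat.Agent.S43lib.Patch

open IsLocalRing MvPowerSeries Fermat.Agent.TeamA Filter

section Tower

variable {Λ : Type*} [CommRing Λ] (I : Ideal Λ) {T0 : Type*} [CommRing T0] [Algebra Λ T0]
  {M0 : Type*} [AddCommGroup M0] [Module Λ M0] [Module T0 M0] [IsScalarTower Λ T0 M0]

theorem mul_mem_smul_top (k : ℕ) (t : T0) {x : T0} (hx : x ∈ (I ^ k • ⊤ : Submodule Λ T0)) :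
    t * x ∈ (I ^ k • ⊤ : Submodule Λ T0) := by
  refine Submodule.smul_induction_on hx ?_ ?_
  · intro a ha z _
    rw [mul_smul_comm]
    exact Submodule.smul_mem_smul ha Submodule.mem_top
  · intro x y hx hy
    rw [mul_add]
    exact Submodule.add_mem _ hx hy

variable {I}

theorem Near.mul_algebra {k : ℕ} {t t' u u' : T0} (h : Near I k t t') (h' : Near I k u u') :
    Near I k (t * u) (t' * u') := by
  unfold Near at *
  have e : t * u - t' * u' = t * (u - u') + u' * (t - t') := by ring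
  rw [e]
  exact Submodule.add_mem _ (mul_mem_smul_top I k t h') (mul_mem_smul_top I k u' h)

theorem smul_mem_smul_top_tower (k : ℕ) (t : T0) {y : M0}
    (hy : y ∈ (I ^ k • ⊤ : Submodule Λ M0)) : t • y ∈ (I ^ k • ⊤ : Submodule Λ M0) := by
  refine Submodule.smul_induction_on hy ?_ ?_
  · intro a ha z _
    have e : t • a • z = a • t • z := by
      rw [← algebraMap_smul T0 a z, ← algebraMap_smul T0 a (t • z), smul_smul, smul_smul, mul_comm]
    rw [e]
    exact Submodule.smul_mem_smul ha Submodule.mem_top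
  · intro x y hx hy
    rw [smul_add]
    exact Submodule.add_mem _ hx hy

theorem smul_mem_smul_top_tower' (k : ℕ) {t : T0} (ht : t ∈ (I ^ k • ⊤ : Submodule Λ T0))
    (y : M0) : t • y ∈ (I ^ k • ⊤ : Submodule Λ M0) := by
  refine Submodule.smul_induction_on ht ?_ ?_
  · intro a ha z _
    rw [smul_assoc]
    exact Submodule.smul_mem_smul ha Submodule.mem_top
  · intro x x' hx hx'
    rw [add_smul]
    exact Submodule.add_mem _ hx hx'

theorem Near.smul_tower {k : ℕ} {t t' : T0} {y y' : M0} (h : Near I k t t') (h' : Near I k y y') :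
    Near I k (t • y) (t' • y') := by
  unfold Near at *
  have e : t • y - t' • y' = t • (y - y') + (t - t') • y' := by
    rw [smul_sub, sub_smul]; abel
  rw [e]
  exact Submodule.add_mem _ (smul_mem_smul_top_tower k t h') (smul_mem_smul_top_tower' k h y')

end Tower

variable {Λ : Type} [CommRing Λ] [IsLocalRing Λ] {m d : ℕ} {P : Type} [CommRing P] [IsLocalRing P]
  [Algebra Λ P] {T0 : Type} [CommRing T0] [Algebra Λ T0] {M0 : Type} [AddCommGroup M0]
  [Module Λ M0] [Module T0 M0] [IsScalarTower Λ T0 M0]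

local notation "𝔪S" => maximalIdeal (MvPowerSeries (Fin m) Λ)
local notation "𝔪Λ" => maximalIdeal Λ

namespace PatchLevel

variable {n : ℕ} (L : PatchLevel Λ m d P T0 M0 n)

theorem v_smul_of_mem_varIdeal {g : MvPowerSeries (Fin m) Λ} (hg : g ∈ varIdeal (Fin m) Λ)
    (x : L.M) : L.v (L.s g • x) = 0 := by
  rw [L.ker_v]
  refine Submodule.smul_mem_smul ?_ Submodule.mem_top
  have h := Ideal.mem_map_of_mem L.s hg
  rw [varIdeal, Ideal.map_span] at h
  convert h using 2
  ext y
  constructor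
  · rintro ⟨i, rfl⟩
    exact ⟨X i, ⟨i, rfl⟩, rfl⟩
  · rintro ⟨_, ⟨i, rfl⟩, rfl⟩
    exact ⟨i, rfl⟩

theorem v_s_smul (f : MvPowerSeries (Fin m) Λ) (x : L.M) :
    L.v (L.s f • x) = constantCoeff f • L.v x := by
  have e : f = C (constantCoeff f) + (f - C (constantCoeff f)) := by ring
  conv_lhs => rw [e]
  rw [map_add, add_smul, map_add, L.v_smul_of_mem_varIdeal (sub_C_constantCoeff_mem_varIdeal _ _ f),
    add_zero, c_eq_algebraMap, AlgHom.commutes, L.v_smul, AlgHom.commutes, algebraMap_smul]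

theorem v_Φ (c : Fin d → MvPowerSeries (Fin m) Λ) :
    L.v (L.Φ c) = ∑ i, constantCoeff (c i) • L.v (L.b i) := by
  unfold Φ
  rw [map_sum]
  exact Finset.sum_congr rfl fun i _ => L.v_s_smul (c i) (L.b i)

theorem constantCoeff_mem_pow {k : ℕ} {f : MvPowerSeries (Fin m) Λ} (hf : f ∈ 𝔪S ^ k) :
    constantCoeff f ∈ 𝔪Λ ^ k := by
  have h1 : Ideal.map (constantCoeff (σ := Fin m) (R := Λ)) 𝔪S ≤ 𝔪Λ := by
    rw [Ideal.map_le_iff_le_comap]
    intro g hg
    rw [Ideal.mem_comap]
    exact (mem_maximalIdeal_mvPowerSeries_iff (Fin m) Λ g).mp hg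
  have h2 := Ideal.mem_map_of_mem (constantCoeff (σ := Fin m) (R := Λ)) hf
  rw [Ideal.map_pow] at h2
  exact Ideal.pow_right_mono h1 k h2

theorem vΦ_near {k : ℕ} {c c' : Fin d → MvPowerSeries (Fin m) Λ} (h : Near 𝔪S k c c') :
    Near 𝔪Λ k (L.v (L.Φ c)) (L.v (L.Φ c')) := by
  rw [near_pi_iff] at h
  unfold Near
  rw [← map_sub, ← L.Φ_sub, L.v_Φ]
  refine Submodule.sum_mem _ fun i _ => ?_
  exact Submodule.smul_mem_smul (constantCoeff_mem_pow (h i)) Submodule.mem_top

end PatchLevel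

end Fermat.Agent.S43lib.Patch
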