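-- Project H (S43), block H-PATCH: `e∞ : P → T0` and `v∞ : PM → M0`.
import Mathlib
import Fermat.Agent.TeamA.MvPS
import Fermat.Agent.S43lib.Patch.Base

set_option autoImplicit false

namespace Fermat.Agent.S43lib.Patch

open IsLocalRing MvPowerSeries Fermat.Agent.TeamA Filter

variable {Λ : Type} [CommRing Λ] [IsLocalRing Λ] [IsNoetherianRing Λ]
  [IsAdicComplete (maximalIdeal Λ) Λ] [Finite (ResidueField Λ)] {m d : ℕ}
  {P : Type} [CommRing P] [IsLocalRing P] [IsNoetherianRing P]
  [IsAdicComplete (maximalIdeal P) P] [Finite (ResidueField P)] [Algebra Λ P]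
  {T0 : Type} [CommRing T0] [Algebra Λ T0] [Module.Finite Λ T0]
  {M0 : Type} [AddCommGroup M0] [Module Λ M0] [Module T0 M0] [IsScalarTower Λ T0 M0]
  [Module.Finite Λ M0]
  (L : ∀ n : ℕ, PatchLevel Λ m d P T0 M0 n)

local notation "𝔪S" => maximalIdeal (MvPowerSeries (Fin m) Λ)
local notation "𝔪Λ" => maximalIdeal Λ

instance adicCompact_T0 : AdicCompact 𝔪Λ T0 := adicCompact_of_finite Λ T0

instance adicCompact_M0 : AdicCompact 𝔪Λ M0 := adicCompact_of_finite Λ M0

/-- The limit of the maps `e_n`. -/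
noncomputable def eInfFun (r : P) : T0 := ulim 𝔪Λ (fun n => (L n).e r)

theorem eInfFun_spec (r : P) (k : ℕ) :
    ∀ᶠ n in (𝔘 : Filter ℕ), Near 𝔪Λ k ((L n).e r) (eInfFun L r) := ulim_spec 𝔪Λ _ k

/-- The limit `e∞ : P →ₐ[Λ] T0`. -/
noncomputable def eInf : P →ₐ[Λ] T0 where
  toFun := eInfFun L
  map_one' := by
    unfold eInfFun
    simp only [map_one]
    exact ulim_const 𝔪Λ 1
  map_mul' r r' := by
    apply ulim_eq
    intro k
    filter_upwards [eInfFun_spec L r k, eInfFun_spec L r' k] with n h h'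
    rw [map_mul]
    exact h.mul_algebra h'
  map_zero' := by
    unfold eInfFun
    simp only [map_zero]
    exact ulim_const 𝔪Λ 0
  map_add' r r' := by
    unfold eInfFun
    simp only [map_add]
    exact ulim_add 𝔪Λ _ _
  commutes' a := by
    change eInfFun L (algebraMap Λ P a) = _
    unfold eInfFun
    simp only [AlgHom.commutes]
    exact ulim_const 𝔪Λ _

theorem eInf_apply (r : P) : eInf L r = ulim 𝔪Λ (fun n => (L n).e r) := rfl

theorem eInf_const {r : P} {t : T0} (h : ∀ n, (L n).e r = t) : eInf L r = t := by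
  rw [eInf_apply]
  simp only [h]
  exact ulim_const 𝔪Λ t

/-- The limit of the base maps. -/
noncomputable def vInfFun (c : Fin d → MvPowerSeries (Fin m) Λ) : M0 :=
  ulim 𝔪Λ (fun n => (L n).v ((L n).Φ c))

theorem vInfFun_spec (c : Fin d → MvPowerSeries (Fin m) Λ) (k : ℕ) :
    ∀ᶠ n in (𝔘 : Filter ℕ), Near 𝔪Λ k ((L n).v ((L n).Φ c)) (vInfFun L c) := ulim_spec 𝔪Λ _ k

theorem vInfFun_add (c c' : Fin d → MvPowerSeries (Fin m) Λ) :
    vInfFun L (c + c') = vInfFun L c + vInfFun L c' := by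
  unfold vInfFun
  rw [← ulim_add]
  congr 1
  funext n
  rw [(L n).Φ_add, map_add]

theorem vInfFun_zero : vInfFun L (0 : Fin d → MvPowerSeries (Fin m) Λ) = 0 := by
  have h := vInfFun_add L 0 0
  rw [add_zero] at h
  exact left_eq_add.mp h

/-- `v∞` as an additive map on the patched module. -/
noncomputable def vInf : PM L →+ M0 where
  toFun := vInfFun L
  map_zero' := vInfFun_zero L
  map_add' := vInfFun_add L

theorem vInf_apply (c : PM L) : vInf L c = vInfFun L c := rfl

/-- Equivariance. -/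
theorem vInf_smul (r : P) (c : PM L) : vInf L (r • c) = eInf L r • vInf L c := by
  rw [vInf_apply, vInf_apply, PM_smul_def]
  apply ulim_eq
  intro k
  filter_upwards [A_spec L r c k, eInfFun_spec L r k, vInfFun_spec L c k] with n h1 h2 h3
  have h4 : Near 𝔪Λ k ((L n).v ((L n).Φ (A L r c))) ((L n).v ((L n).Φ ((L n).act r c))) :=
    (L n).vΦ_near h1.symm
  rw [(L n).Φ_act, (L n).v_smul] at h4
  exact h4.trans (h2.smul_tower h3)

theorem vInf_surjective : Function.Surjective (vInf L) := by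
  intro y
  have hc : ∀ n, ∃ c : Fin d → MvPowerSeries (Fin m) Λ, (L n).v ((L n).Φ c) = y := by
    intro n
    obtain ⟨x, hx⟩ := (L n).v_surjective y
    obtain ⟨c, rfl⟩ := (L n).Φ_surjective x
    exact ⟨c, hx⟩
  choose cn hcn using hc
  have key : vInfFun L (ulim 𝔪S cn) = y := by
    apply ulim_eq
    intro k
    filter_upwards [ulim_spec 𝔪S cn k] with n hn
    have := (L n).vΦ_near hn.symm
    rwa [hcn n] at this
  exact ⟨(ulim 𝔪S cn : Fin d → MvPowerSeries (Fin m) Λ), key⟩

end Fermat.Agent.S43lib.Patch
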