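-- Project H (S43), block H-PATCH: the kernel of `v∞` is `(y) • PM`.
import Mathlib
import Fermat.Agent.TeamA.MvPS
import Fermat.Agent.S43lib.Patch.BaseLim

set_option autoImplicit false

namespace Fermat.Agent.S43lib.Patch

open IsLocalRing MvPowerSeries Fermat.Agent.TeamA Filter

section Level

variable {Λ : Type} [CommRing Λ] [IsLocalRing Λ] {m d : ℕ} {P : Type} [CommRing P] [IsLocalRing P]
  [Algebra Λ P] {T0 : Type} [CommRing T0] [Algebra Λ T0] {M0 : Type} [AddCommGroup M0]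
  [Module Λ M0] [Module T0 M0] [IsScalarTower Λ T0 M0]

local notation "𝔪S" => maximalIdeal (MvPowerSeries (Fin m) Λ)
local notation "𝔪Λ" => maximalIdeal Λ

theorem constantCoeff_eq_zero_of_mem_varIdeal {g : MvPowerSeries (Fin m) Λ}
    (hg : g ∈ varIdeal (Fin m) Λ) : constantCoeff g = 0 := by
  have h := Ideal.mem_map_of_mem (constantCoeff (σ := Fin m) (R := Λ)) hg
  rw [varIdeal, Ideal.map_span] at h
  have hle : Ideal.span ((constantCoeff (σ := Fin m) (R := Λ)) '' Set.range X) ≤ ⊥ := by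
    rw [Ideal.span_le]
    rintro _ ⟨_, ⟨i, rfl⟩, rfl⟩
    rw [constantCoeff_X]
    exact Ideal.zero_mem _
  exact (Ideal.mem_bot).mp (hle h)

theorem C_mem_pow {k : ℕ} {a : Λ} (ha : a ∈ 𝔪Λ ^ k) :
    (C a : MvPowerSeries (Fin m) Λ) ∈ 𝔪S ^ k := by
  have h1 : Ideal.map (C (σ := Fin m) (R := Λ)) 𝔪Λ ≤ 𝔪S := by
    rw [Ideal.map_le_iff_le_comap]
    intro b hb
    rw [Ideal.mem_comap, mem_maximalIdeal_mvPowerSeries_iff, constantCoeff_C]
    exact hb
  have h2 := Ideal.mem_map_of_mem (C (σ := Fin m) (R := Λ)) ha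
  rw [Ideal.map_pow] at h2
  exact Ideal.pow_right_mono h1 k h2

namespace PatchLevel

variable {n : ℕ} (L : PatchLevel Λ m d P T0 M0 n)

theorem exists_small_vΦ (k : ℕ) {y : M0} (hy : y ∈ (𝔪Λ ^ k • ⊤ : Submodule Λ M0)) :
    ∃ c' : Fin d → MvPowerSeries (Fin m) Λ, (∀ j, c' j ∈ 𝔪S ^ k) ∧ L.v (L.Φ c') = y := by
  refine Submodule.smul_induction_on hy ?_ ?_
  · intro a ha y' _
    obtain ⟨x, rfl⟩ := L.v_surjective y'
    obtain ⟨c'', rfl⟩ := L.Φ_surjective x
    refine ⟨(C a : MvPowerSeries (Fin m) Λ) • c'', fun j => ?_, ?_⟩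
    · rw [Pi.smul_apply, smul_eq_mul]
      exact Ideal.mul_mem_right _ _ (C_mem_pow ha)
    · rw [L.Φ_smul, L.v_s_smul, constantCoeff_C]
  · intro y₁ y₂ ⟨c₁, h₁, e₁⟩ ⟨c₂, h₂, e₂⟩
    exact ⟨c₁ + c₂, fun j => Ideal.add_mem _ (h₁ j) (h₂ j), by rw [L.Φ_add, map_add, e₁, e₂]⟩

theorem exists_Φ_of_v_eq_zero {x : L.M} (hx : L.v x = 0) :
    ∃ c' : Fin d → MvPowerSeries (Fin m) Λ, (∀ j, constantCoeff (c' j) = 0) ∧ x = L.Φ c' := by
  rw [L.ker_v] at hx
  have hmap : Ideal.span (Set.range fun i : Fin m => L.s (X i)) =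
      Ideal.map L.s (varIdeal (Fin m) Λ) := by
    rw [varIdeal, Ideal.map_span]
    congr 1
    ext y
    constructor
    · rintro ⟨i, rfl⟩
      exact ⟨X i, ⟨i, rfl⟩, rfl⟩
    · rintro ⟨_, ⟨i, rfl⟩, rfl⟩
      exact ⟨i, rfl⟩
  rw [hmap] at hx
  obtain ⟨c', hc', e⟩ := L.exists_Φ_of_mem_map_smul_top _ hx
  exact ⟨c', fun j => constantCoeff_eq_zero_of_mem_varIdeal (hc' j), e⟩

/-- If `v (Φ c₀)` is `𝔪^k`-small then the constant coefficients of `c₀` are. -/
theorem constantCoeff_mem_of_vΦ_small {k : ℕ} (hk : k ≤ n) {c₀ : Fin d → MvPowerSeries (Fin m) Λ}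
    (h : L.v (L.Φ c₀) ∈ (𝔪Λ ^ k • ⊤ : Submodule Λ M0)) (j : Fin d) :
    constantCoeff (c₀ j) ∈ 𝔪Λ ^ k := by
  obtain ⟨c', hc', e'⟩ := L.exists_small_vΦ k h
  have h0 : L.v (L.Φ (c₀ - c')) = 0 := by rw [L.Φ_sub, map_sub, e', sub_self]
  obtain ⟨c'', hc'', e''⟩ := L.exists_Φ_of_v_eq_zero h0
  have hnear := L.near_of_Φ_eq e''
  rw [near_pi_iff] at hnear
  have h1 := PatchLevel.constantCoeff_mem_pow (hnear j)
  rw [Pi.sub_apply, map_sub, map_sub, hc'' j, sub_zero] at h1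
  have h2 : constantCoeff (c' j) ∈ 𝔪Λ ^ k := PatchLevel.constantCoeff_mem_pow (hc' j)
  have h3 := Ideal.add_mem _ (Ideal.pow_le_pow_right hk h1) h2
  rwa [sub_add_cancel] at h3

end PatchLevel

end Level

variable {Λ : Type} [CommRing Λ] [IsLocalRing Λ] [IsNoetherianRing Λ]
  [IsAdicComplete (maximalIdeal Λ) Λ] [Finite (ResidueField Λ)] {m d : ℕ}
  {P : Type} [CommRing P] [IsLocalRing P] [IsNoetherianRing P]
  [IsAdicComplete (maximalIdeal P) P] [Finite (ResidueField P)] [Algebra Λ P]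
  {T0 : Type} [CommRing T0] [Algebra Λ T0] [Module.Finite Λ T0]
  {M0 : Type} [AddCommGroup M0] [Module Λ M0] [Module T0 M0] [IsScalarTower Λ T0 M0]
  [Module.Finite Λ M0]
  (L : ∀ n : ℕ, PatchLevel Λ m d P T0 M0 n)

local notation "𝔪S" => maximalIdeal (MvPowerSeries (Fin m) Λ)
local notation "𝔪Λ" => maximalIdeal Λ

theorem vInfFun_X_smul (i : Fin m) (c : Fin d → MvPowerSeries (Fin m) Λ) :
    vInfFun L ((X i : MvPowerSeries (Fin m) Λ) • c) = 0 := by
  unfold vInfFun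
  have : (fun n => (L n).v ((L n).Φ ((X i : MvPowerSeries (Fin m) Λ) • c))) = fun _ => (0 : M0) := by
    funext n
    rw [(L n).Φ_smul, (L n).v_s_smul, constantCoeff_X, zero_smul]
  rw [this]
  exact ulim_const 𝔪Λ 0

theorem eInf_smul_eq_zero_of_mem_span {a : P}
    (ha : a ∈ Ideal.span (Set.range fun i : Fin m => sInf L (X i))) (y : M0) :
    eInf L a • y = 0 := by
  revert y
  refine Submodule.span_induction (p := fun a _ => ∀ y : M0, eInf L a • y = 0) ?_ ?_ ?_ ?_ ha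
  · rintro _ ⟨i, rfl⟩ y
    obtain ⟨c, rfl⟩ := vInf_surjective L y
    rw [← vInf_smul, PM_sInf_smul]
    exact vInfFun_X_smul L i c
  · intro y
    rw [map_zero, zero_smul]
  · intro a₁ a₂ _ _ h₁ h₂ y
    rw [map_add, add_smul, h₁, h₂, add_zero]
  · intro p a₁ _ h₁ y
    rw [smul_eq_mul, map_mul, mul_smul, h₁, smul_zero]

theorem vInf_eq_zero_of_mem {c : PM L}
    (hc : c ∈ (Ideal.span (Set.range fun i : Fin m => sInf L (X i))) • (⊤ : Submodule P (PM L))) :
    vInf L c = 0 := by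
  refine Submodule.smul_induction_on hc ?_ ?_
  · intro a ha x _
    rw [vInf_smul]
    exact eInf_smul_eq_zero_of_mem_span L ha _
  · intro x y hx hy
    rw [map_add, hx, hy, add_zero]

theorem constantCoeff_eq_zero_of_vInfFun_eq_zero {c₀ : Fin d → MvPowerSeries (Fin m) Λ}
    (h : vInfFun L c₀ = 0) (j : Fin d) : constantCoeff (c₀ j) = 0 := by
  apply eq_of_forall_near (I := 𝔪Λ)
  intro k
  obtain ⟨n, hn, hn'⟩ := ((eventually_ge_𝔘 k).and (vInfFun_spec L c₀ k)).exists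
  rw [h] at hn'
  unfold Near at hn'
  rw [sub_zero] at hn'
  rw [near_ring_iff, sub_zero]
  exact (L n).constantCoeff_mem_of_vΦ_small hn hn' j

theorem mem_of_vInf_eq_zero {c : PM L} (hc : vInf L c = 0) :
    c ∈ (Ideal.span (Set.range fun i : Fin m => sInf L (X i))) • (⊤ : Submodule P (PM L)) := by
  -- decompose `c = c₀ + ∑ X_i • G_i`
  have hdec : ∀ j : Fin d, ∃ g : Fin m → MvPowerSeries (Fin m) Λ,
      ∑ i, g i * X i = (c j : MvPowerSeries (Fin m) Λ) - C (constantCoeff (c j)) := by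
    intro j
    have h := sub_C_constantCoeff_mem_varIdeal (Fin m) Λ (c j)
    rw [varIdeal] at h
    exact (Ideal.mem_span_range_iff_exists_fun).mp h
  choose g hg using hdec
  let G : Fin m → PM L := fun i j => g j i
  let c₀ : PM L := fun j => C (constantCoeff (c j))
  have hsum : c = c₀ + ∑ i, sInf L (X i) • G i := by
    have : ∀ i, sInf L (X i) • G i = (X i : MvPowerSeries (Fin m) Λ) • G i :=
      fun i => PM_sInf_smul L (X i) (G i)
    simp only [this]
    funext j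
    change c j = c₀ j + (∑ i, (X i : MvPowerSeries (Fin m) Λ) • G i) j
    have hj : (∑ i, (X i : MvPowerSeries (Fin m) Λ) • G i) j = ∑ i, g j i * X i := by
      have : (∑ i, (X i : MvPowerSeries (Fin m) Λ) • G i) j
          = ∑ i, ((X i : MvPowerSeries (Fin m) Λ) • G i) j := Finset.sum_apply _ _ _
      rw [this]
      refine Finset.sum_congr rfl fun i _ => ?_
      change (X i : MvPowerSeries (Fin m) Λ) * g j i = _
      rw [mul_comm]
    rw [hj, hg j]
    change c j = C (constantCoeff (c j)) + _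
    ring
  have hmem : ∑ i, sInf L (X i) • G i ∈
      (Ideal.span (Set.range fun i : Fin m => sInf L (X i))) • (⊤ : Submodule P (PM L)) :=
    Submodule.sum_mem _ fun i _ =>
      Submodule.smul_mem_smul (Ideal.subset_span ⟨i, rfl⟩) Submodule.mem_top
  have h0 : vInf L c₀ = 0 := by
    have h1 := congrArg (vInf L) hsum
    rw [map_add, vInf_eq_zero_of_mem L hmem, add_zero, hc] at h1
    exact h1.symm
  have hc₀ : c₀ = 0 := by
    funext j
    have := constantCoeff_eq_zero_of_vInfFun_eq_zero L (c₀ := c₀) h0 j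
    change C (constantCoeff (c j)) = 0
    have h2 : constantCoeff (c₀ j) = constantCoeff (c j) := by
      change constantCoeff (C (constantCoeff (c j))) = _
      rw [constantCoeff_C]
    rw [← h2, this, map_zero]
  rw [hsum, hc₀, zero_add]
  exact hmem

theorem vInf_eq_zero_iff (c : PM L) : vInf L c = 0 ↔
    c ∈ (Ideal.span (Set.range fun i : Fin m => sInf L (X i))) • (⊤ : Submodule P (PM L)) :=
  ⟨mem_of_vInf_eq_zero L, vInf_eq_zero_of_mem L⟩

end Fermat.Agent.S43lib.Patch
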