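-- Project H (S43), block H-PATCH: THE ABSTRACT PATCHING THEOREM.
--
-- `patchStatement_holds`: for a complete Noetherian local ring `Λ` with finite residue field, a
-- complete Noetherian local `Λ`-algebra `P` with finite residue field, a finite commutative
-- `Λ`-algebra `T0` and a finite `Λ`-module `M0` with compatible `T0`-action: patching levels of all
-- depths patch (`PatchStatement` of `Patch/Defs.lean`).
import Mathlib
import Fermat.Agent.TeamA.MvPS
import Fermat.Agent.S43lib.Patch.Ker
import Fermat.Agent.S43lib.Patch.Kill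

set_option autoImplicit false

namespace Fermat.Agent.S43lib.Patch

open IsLocalRing MvPowerSeries Fermat.Agent.TeamA Filter

variable {Λ : Type} [CommRing Λ] [IsLocalRing Λ] [IsNoetherianRing Λ]
  [IsAdicComplete (maximalIdeal Λ) Λ] [Finite (ResidueField Λ)] {m d : ℕ}
  {P : Type} [CommRing P] [IsLocalRing P] [IsNoetherianRing P]
  [IsAdicComplete (maximalIdeal P) P] [Finite (ResidueField P)] [Algebra Λ P]
  {T0 : Type} [CommRing T0] [Algebra Λ T0] [Module.Finite Λ T0]
  {M0 : Type} [AddCommGroup M0] [Module Λ M0] [Module T0 M0] [IsScalarTower Λ T0 M0]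
  [Module.Finite Λ M0]
  (L : ∀ n : ℕ, PatchLevel Λ m d P T0 M0 n)

/-- The standard basis of the patched module. -/
noncomputable def PMb (i : Fin d) : PM L :=
  (Pi.single i (1 : MvPowerSeries (Fin m) Λ) : Fin d → MvPowerSeries (Fin m) Λ)

theorem PM_sum_sInf_smul (c : Fin d → MvPowerSeries (Fin m) Λ) :
    ∑ i, sInf L (c i) • PMb L i = (c : PM L) := by
  have h : ∀ i, sInf L (c i) • PMb L i = (c i) • PMb L i := fun i => PM_sInf_smul L (c i) (PMb L i)
  simp only [h]
  exact (pi_eq_sum_single (A := MvPowerSeries (Fin m) Λ) c).symm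

/-- The patched object. -/
noncomputable def patchOutput : PatchOutput Λ m d P T0 M0 where
  s := sInf L
  s_X_mem i := by rw [sInf_X]; exact σ_mem L i
  M := PM L
  b := PMb L
  b_basis x := by
    refine ⟨(x : Fin d → MvPowerSeries (Fin m) Λ), (PM_sum_sInf_smul L _).symm, ?_⟩
    intro c hc
    rw [PM_sum_sInf_smul] at hc
    exact hc.symm
  e := eInf L
  v := vInf L
  v_smul := vInf_smul L
  v_surjective := vInf_surjective L
  ker_v := vInf_eq_zero_iff L

/-- **The patching theorem.** -/
theorem patchStatement_holds : PatchStatement Λ m d P T0 M0 := by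
  intro L
  refine ⟨patchOutput L, ?_, ?_⟩
  · intro r t h
    exact eInf_const L h
  · intro J 𝔨 h r hr x
    exact PM_kill L J 𝔨 h hr x

end Fermat.Agent.S43lib.Patch
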