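-- Project H (S43), block H-PATCH: power series with coefficients in a finitely generated ideal.
import Mathlib

set_option autoImplicit false

namespace Fermat.Agent.S43lib.Patch

open MvPowerSeries

variable {ι : Type*} {Λ : Type*} [CommRing Λ]

/-- A power series all of whose coefficients lie in a finitely generated ideal `𝔨` lies in the
extended ideal `𝔨 Λ⟦X⟧`. -/
theorem mem_map_C_of_forall_coeff_mem {𝔨 : Ideal Λ} (h𝔨 : 𝔨.FG) {f : MvPowerSeries ι Λ}
    (hf : ∀ μ, coeff μ f ∈ 𝔨) : f ∈ 𝔨.map (C (σ := ι) (R := Λ)) := by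
  classical
  obtain ⟨gens, rfl⟩ := h𝔨
  -- coefficients as combinations of the generators
  have hcoef : ∀ μ, ∃ b : Λ → Λ, coeff μ f = ∑ k ∈ gens, b k * k := by
    intro μ
    have := hf μ
    rw [Submodule.mem_span_finset] at this
    obtain ⟨b, -, hb⟩ := this
    exact ⟨b, by simpa [smul_eq_mul] using hb.symm⟩
  choose b hb using hcoef
  let g : Λ → MvPowerSeries ι Λ := fun k μ => b μ k
  have hg : ∀ k μ, coeff μ (g k) = b μ k := fun k μ => rfl
  have hsum : f = ∑ k ∈ gens, (C k : MvPowerSeries ι Λ) * g k := by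
    ext μ
    rw [map_sum, hb μ]
    refine Finset.sum_congr rfl fun k _ => ?_
    rw [coeff_C_mul, hg, mul_comm]
  rw [hsum]
  refine Ideal.sum_mem _ fun k hk => Ideal.mul_mem_right _ _ ?_
  exact Ideal.mem_map_of_mem _ (Ideal.subset_span hk)

/-- Conversely, elements of the extended ideal have coefficients in the ideal. -/
theorem coeff_mem_of_mem_map_C {𝔨 : Ideal Λ} {f : MvPowerSeries ι Λ}
    (hf : f ∈ 𝔨.map (C (σ := ι) (R := Λ))) (μ : ι →₀ ℕ) : coeff μ f ∈ 𝔨 := by
  classical
  unfold Ideal.map at hf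
  refine Submodule.span_induction (p := fun f _ => ∀ μ, coeff μ f ∈ 𝔨) ?_ ?_ ?_ ?_ hf μ
  · rintro _ ⟨a, ha, rfl⟩ μ
    rw [coeff_C]
    split_ifs
    · exact ha
    · exact Ideal.zero_mem _
  · intro μ
    rw [map_zero]
    exact Ideal.zero_mem _
  · intro f g _ _ hf hg μ
    rw [map_add]
    exact Ideal.add_mem _ (hf μ) (hg μ)
  · intro g f _ hf μ
    rw [smul_eq_mul, coeff_mul]
    exact Ideal.sum_mem _ fun p _ => Ideal.mul_mem_left _ _ (hf p.2)

end Fermat.Agent.S43lib.Patch
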