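-- Project H (S43), block H-PATCH: specialisation of a patched module along an augmentation `χ : Λ → 𝒪`.
--
-- `M` a module over `P̃ = Λ⟦ι⟧`, free of rank `d` over `Λ⟦y⟧` through `s̃ : Λ⟦y⟧ →ₐ[Λ] P̃`.  For an
-- `𝒪`-algebra map `χ : Λ → 𝒪` the quotient `SpecM χ ι M = M / (ker χ) M` is a module over `P = 𝒪⟦ι⟧`
-- (through the coefficientwise lift `P → P̃`), free of rank `d` over `𝒪⟦y⟧` through the specialised map
-- `specS χ s̃ : 𝒪⟦y⟧ →ₐ[𝒪] P`.
import Mathlib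
import Fermat.Agent.S43lib.Patch.Coeff

set_option autoImplicit false

namespace Fermat.Agent.S43lib.Patch

open MvPowerSeries

variable {𝒪 Λ : Type} [CommRing 𝒪] [CommRing Λ] [Algebra 𝒪 Λ] (χ : Λ →ₐ[𝒪] 𝒪) {ι : Type}

/-- The coefficientwise lift `𝒪⟦ι⟧ → Λ⟦ι⟧`. -/
noncomputable def liftPS (Λ : Type) [CommRing Λ] [Algebra 𝒪 Λ] (ι : Type) :
    MvPowerSeries ι 𝒪 →ₐ[𝒪] MvPowerSeries ι Λ :=
  mapAlgHom (Algebra.ofId 𝒪 Λ)

/-- The coefficientwise specialisation `Λ⟦ι⟧ → 𝒪⟦ι⟧`. -/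
noncomputable def downPS (ι : Type) : MvPowerSeries ι Λ →ₐ[𝒪] MvPowerSeries ι 𝒪 :=
  mapAlgHom χ

theorem downPS_liftPS (f : MvPowerSeries ι 𝒪) : downPS χ ι (liftPS Λ ι f) = f := by
  ext μ
  simp [downPS, liftPS, mapAlgHom_apply]

theorem coeff_liftPS (f : MvPowerSeries ι 𝒪) (μ : ι →₀ ℕ) :
    coeff μ (liftPS Λ ι f) = algebraMap 𝒪 Λ (coeff μ f) := by
  simp [liftPS, mapAlgHom_apply, Algebra.ofId_apply]

theorem coeff_downPS (u : MvPowerSeries ι Λ) (μ : ι →₀ ℕ) :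
    coeff μ (downPS χ ι u) = χ (coeff μ u) := by
  simp [downPS, mapAlgHom_apply]

/-- The extended kernel `(ker χ) Λ⟦ι⟧`. -/
noncomputable def kerExt (ι : Type) : Ideal (MvPowerSeries ι Λ) :=
  (RingHom.ker (χ : Λ →+* 𝒪)).map (C (σ := ι) (R := Λ))

theorem sub_liftPS_downPS_mem [IsNoetherianRing Λ] (u : MvPowerSeries ι Λ) :
    u - liftPS Λ ι (downPS χ ι u) ∈ kerExt χ ι := by
  apply mem_map_C_of_forall_coeff_mem (IsNoetherian.noetherian _)
  intro μ
  rw [map_sub, coeff_liftPS, coeff_downPS, RingHom.mem_ker, map_sub]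
  simp

theorem downPS_eq_zero_of_mem {u : MvPowerSeries ι Λ} (hu : u ∈ kerExt χ ι) :
    downPS χ ι u = 0 := by
  ext μ
  rw [coeff_downPS, map_zero]
  exact (RingHom.mem_ker).mp (coeff_mem_of_mem_map_C hu μ)

section Module

variable {m d : ℕ} (s : MvPowerSeries (Fin m) Λ →ₐ[Λ] MvPowerSeries ι Λ)
  (M : Type) [AddCommGroup M] [Module (MvPowerSeries ι Λ) M]

/-- The specialised module `M / (ker χ) M`. -/
def SpecM (ι : Type) (M : Type) [AddCommGroup M] [Module (MvPowerSeries ι Λ) M] : Type := M ⧸ (kerExt χ ι • ⊤ : Submodule (MvPowerSeries ι Λ) M)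

noncomputable instance : AddCommGroup (SpecM χ ι M) :=
  inferInstanceAs (AddCommGroup (M ⧸ (kerExt χ ι • ⊤ : Submodule (MvPowerSeries ι Λ) M)))

noncomputable instance instModuleSpecMBig : Module (MvPowerSeries ι Λ) (SpecM χ ι M) :=
  inferInstanceAs (Module (MvPowerSeries ι Λ)
    (M ⧸ (kerExt χ ι • ⊤ : Submodule (MvPowerSeries ι Λ) M)))

/-- `𝒪⟦ι⟧` acts on the specialised module through the coefficientwise lift. -/
noncomputable instance instModuleSpecM : Module (MvPowerSeries ι 𝒪) (SpecM χ ι M) :=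
  Module.compHom (SpecM χ ι M) ((liftPS (𝒪 := 𝒪) Λ ι).toRingHom)

variable {M}

/-- The projection. -/
noncomputable def SpecM.mk (ι : Type) {M : Type} [AddCommGroup M] [Module (MvPowerSeries ι Λ) M] (x : M) : SpecM χ ι M :=
  (Submodule.Quotient.mk x : M ⧸ (kerExt χ ι • ⊤ : Submodule (MvPowerSeries ι Λ) M))

theorem SpecM.mk_surjective : Function.Surjective (SpecM.mk χ ι (M := M)) :=
  Submodule.Quotient.mk_surjective _

theorem SpecM.mk_add (x y : M) : SpecM.mk χ ι (x + y) = SpecM.mk χ ι x + SpecM.mk χ ι y := rfl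

theorem SpecM.mk_zero : SpecM.mk χ ι (0 : M) = 0 := rfl

theorem SpecM.mk_sum {κ : Type*} (t : Finset κ) (x : κ → M) :
    SpecM.mk χ ι (∑ j ∈ t, x j) = ∑ j ∈ t, SpecM.mk χ ι (x j) :=
  map_sum (Submodule.mkQ (kerExt χ ι • ⊤ : Submodule (MvPowerSeries ι Λ) M)) x t

theorem SpecM.mk_eq_zero_iff (x : M) : SpecM.mk χ ι x = 0 ↔
    x ∈ (kerExt χ ι • ⊤ : Submodule (MvPowerSeries ι Λ) M) :=
  Submodule.Quotient.mk_eq_zero _

theorem SpecM.big_smul_mk (u : MvPowerSeries ι Λ) (x : M) :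
    u • SpecM.mk χ ι x = SpecM.mk χ ι (u • x) := rfl

theorem SpecM.smul_mk (t : MvPowerSeries ι 𝒪) (x : M) :
    t • SpecM.mk χ ι x = SpecM.mk χ ι (liftPS Λ ι t • x) := rfl

theorem SpecM.mk_smul_of_mem {u : MvPowerSeries ι Λ} (hu : u ∈ kerExt χ ι) (x : M) :
    SpecM.mk χ ι (u • x) = 0 := by
  rw [SpecM.mk_eq_zero_iff]
  exact Submodule.smul_mem_smul hu Submodule.mem_top

/-- On the specialised module `u` and `lift (down u)` act in the same way. -/
theorem SpecM.downPS_smul_mk [IsNoetherianRing Λ] (u : MvPowerSeries ι Λ) (x : M) :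
    downPS χ ι u • SpecM.mk χ ι x = SpecM.mk χ ι (u • x) := by
  rw [SpecM.smul_mk]
  have h := SpecM.mk_smul_of_mem χ (sub_liftPS_downPS_mem χ u) x
  rw [sub_smul] at h
  have h2 : SpecM.mk χ ι (u • x - liftPS Λ ι (downPS χ ι u) • x) =
      SpecM.mk χ ι (u • x) - SpecM.mk χ ι (liftPS Λ ι (downPS χ ι u) • x) := rfl
  rw [h2, sub_eq_zero] at h
  exact h.symm

/-- The specialised structure map `𝒪⟦y⟧ → 𝒪⟦ι⟧`. -/
noncomputable def specS : MvPowerSeries (Fin m) 𝒪 →ₐ[𝒪] MvPowerSeries ι 𝒪 :=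
  (downPS χ ι).comp ((s.restrictScalars 𝒪).comp (liftPS Λ (Fin m)))

theorem specS_apply (f : MvPowerSeries (Fin m) 𝒪) :
    specS χ s f = downPS χ ι (s (liftPS Λ (Fin m) f)) := rfl

theorem SpecM.specS_smul_mk [IsNoetherianRing Λ] (f : MvPowerSeries (Fin m) 𝒪) (x : M) :
    specS χ s f • SpecM.mk χ ι x = SpecM.mk χ ι (s (liftPS Λ (Fin m) f) • x) := by
  rw [specS_apply, SpecM.downPS_smul_mk]

theorem s_mem_kerExt {g : MvPowerSeries (Fin m) Λ} (hg : g ∈ kerExt χ (Fin m)) :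
    s g ∈ kerExt χ ι := by
  have h1 : Ideal.map s (kerExt χ (Fin m)) ≤ kerExt χ ι := by
    unfold kerExt
    have h : Ideal.map s ((RingHom.ker (χ : Λ →+* 𝒪)).map (C (σ := Fin m) (R := Λ))) =
        Ideal.map (s : MvPowerSeries (Fin m) Λ →+* MvPowerSeries ι Λ)
          ((RingHom.ker (χ : Λ →+* 𝒪)).map (C (σ := Fin m) (R := Λ))) := rfl
    rw [h, Ideal.map_map]
    apply le_of_eq
    congr 1
    ext a : 1
    rw [RingHom.comp_apply, c_eq_algebraMap, c_eq_algebraMap]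
    exact s.commutes a
  exact h1 (Ideal.mem_map_of_mem s hg)

variable (b : Fin d → M)
  (hb : ∀ x : M, ∃! c : Fin d → MvPowerSeries (Fin m) Λ, x = ∑ i, s (c i) • b i)

include hb in
/-- Elements of `(ker χ) M` have coordinates in `(ker χ) Λ⟦y⟧`. -/
theorem exists_coords_of_mem_kerExt_smul {x : M}
    (hx : x ∈ (kerExt χ ι • ⊤ : Submodule (MvPowerSeries ι Λ) M)) :
    ∃ c : Fin d → MvPowerSeries (Fin m) Λ, (∀ i, c i ∈ kerExt χ (Fin m)) ∧
      x = ∑ i, s (c i) • b i := by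
  -- first for `r • x` with `r ∈ kerExt`
  have key : ∀ r ∈ kerExt χ ι, ∀ y : M, ∃ c : Fin d → MvPowerSeries (Fin m) Λ,
      (∀ i, c i ∈ kerExt χ (Fin m)) ∧ r • y = ∑ i, s (c i) • b i := by
    intro r hr
    unfold kerExt Ideal.map at hr
    refine Submodule.span_induction (p := fun r _ => ∀ y : M,
      ∃ c : Fin d → MvPowerSeries (Fin m) Λ, (∀ i, c i ∈ kerExt χ (Fin m)) ∧
        r • y = ∑ i, s (c i) • b i) ?_ ?_ ?_ ?_ hr
    · rintro _ ⟨a, ha, rfl⟩ y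
      obtain ⟨c, hc, -⟩ := hb y
      refine ⟨fun i => C a * c i, fun i => ?_, ?_⟩
      · exact Ideal.mul_mem_right _ _ (Ideal.mem_map_of_mem _ ha)
      · conv_lhs => rw [hc, Finset.smul_sum]
        refine Finset.sum_congr rfl fun i _ => ?_
        rw [map_mul, mul_smul, c_eq_algebraMap, c_eq_algebraMap, s.commutes]
    · intro y
      exact ⟨0, fun i => Ideal.zero_mem _, by simp⟩
    · intro r₁ r₂ _ _ h₁ h₂ y
      obtain ⟨c₁, hc₁, e₁⟩ := h₁ y
      obtain ⟨c₂, hc₂, e₂⟩ := h₂ y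
      refine ⟨c₁ + c₂, fun i => Ideal.add_mem _ (hc₁ i) (hc₂ i), ?_⟩
      rw [add_smul, e₁, e₂, ← Finset.sum_add_distrib]
      refine Finset.sum_congr rfl fun i _ => ?_
      rw [Pi.add_apply, map_add, add_smul]
    · intro p r₁ _ h₁ y
      obtain ⟨c₁, hc₁, e₁⟩ := h₁ (p • y)
      refine ⟨c₁, hc₁, ?_⟩
      rw [← e₁, smul_eq_mul, mul_smul, smul_comm]
  refine Submodule.smul_induction_on hx ?_ ?_
  · intro r hr y _
    exact key r hr y
  · intro x y ⟨c₁, hc₁, e₁⟩ ⟨c₂, hc₂, e₂⟩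
    refine ⟨c₁ + c₂, fun i => Ideal.add_mem _ (hc₁ i) (hc₂ i), ?_⟩
    rw [e₁, e₂, ← Finset.sum_add_distrib]
    refine Finset.sum_congr rfl fun i _ => ?_
    rw [Pi.add_apply, map_add, add_smul]

include hb in
/-- **The specialised module is free of rank `d` over `𝒪⟦y⟧` through `specS`.** -/
theorem SpecM.basis [IsNoetherianRing Λ] (x : SpecM χ ι M) :
    ∃! c : Fin d → MvPowerSeries (Fin m) 𝒪, x = ∑ i, specS χ s (c i) • SpecM.mk χ ι (b i) := by
  obtain ⟨x, rfl⟩ := SpecM.mk_surjective χ x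
  obtain ⟨ct, hct, -⟩ := hb x
  have hrepr : ∀ c : Fin d → MvPowerSeries (Fin m) 𝒪,
      ∑ i, specS χ s (c i) • SpecM.mk χ ι (b i) =
        SpecM.mk χ ι (∑ i, s (liftPS Λ (Fin m) (c i)) • b i) := by
    intro c
    rw [SpecM.mk_sum]
    exact Finset.sum_congr rfl fun i _ => SpecM.specS_smul_mk χ s (c i) (b i)
  refine ⟨fun i => downPS χ (Fin m) (ct i), ?_, ?_⟩
  · -- existence
    change SpecM.mk χ ι x = _
    rw [hrepr, ← sub_eq_zero]
    change SpecM.mk χ ι (x - _) = 0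
    rw [SpecM.mk_eq_zero_iff]
    have hx' : x - ∑ i, s (liftPS Λ (Fin m) (downPS χ (Fin m) (ct i))) • b i =
        ∑ i, (s (ct i) • b i - s (liftPS Λ (Fin m) (downPS χ (Fin m) (ct i))) • b i) := by
      rw [Finset.sum_sub_distrib, ← hct]
    rw [hx']
    refine Submodule.sum_mem _ fun i _ => ?_
    rw [← sub_smul, ← map_sub]
    exact Submodule.smul_mem_smul (s_mem_kerExt χ s (sub_liftPS_downPS_mem χ (ct i)))
      Submodule.mem_top
  · -- uniqueness
    intro c hc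
    change SpecM.mk χ ι x = _ at hc
    rw [hrepr] at hc
    have h0 : SpecM.mk χ ι (x - ∑ i, s (liftPS Λ (Fin m) (c i)) • b i) = 0 := by
      change SpecM.mk χ ι x - SpecM.mk χ ι _ = 0
      rw [hc, sub_self]
    rw [SpecM.mk_eq_zero_iff] at h0
    obtain ⟨c', hc', e'⟩ := exists_coords_of_mem_kerExt_smul χ s b hb h0
    have hx2 : x = ∑ i, s (liftPS Λ (Fin m) (c i) + c' i) • b i := by
      have : ∑ i, s (liftPS Λ (Fin m) (c i) + c' i) • b i =
          ∑ i, s (liftPS Λ (Fin m) (c i)) • b i + ∑ i, s (c' i) • b i := by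
        rw [← Finset.sum_add_distrib]
        refine Finset.sum_congr rfl fun i _ => ?_
        rw [map_add, add_smul]
      rw [this, ← e']
      abel
    obtain ⟨c₀, -, huniq⟩ := hb x
    have h1 := huniq ct hct
    have h2 := huniq (fun i => liftPS Λ (Fin m) (c i) + c' i) hx2
    funext i
    have h3 : ct i = liftPS Λ (Fin m) (c i) + c' i := by
      rw [h1, ← h2]
    rw [h3, map_add, downPS_liftPS, downPS_eq_zero_of_mem χ (hc' i), add_zero]

end Module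

end Fermat.Agent.S43lib.Patch
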