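-- Project H (S43), wiring: two standard facts of commutative algebra.
--  * `mem_prime_of_smul_mem_smul_top`: if `t M ⊆ I M`, `M` finite, and `𝔮 ⊇ I + Ann M` is prime, then
--    `t ∈ 𝔮` (Cayley–Hamilton).
--  * `exists_prime_comap_eq`: lying over for an integral ring map whose kernel is contained in `𝔮`.
import Mathlib

set_option autoImplicit false

namespace Fermat.Agent.S43lib.Patch

open Polynomial

theorem mem_prime_of_smul_mem_smul_top {R : Type*} [CommRing R] {M : Type*} [AddCommGroup M]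
    [Module R M] [Module.Finite R M] (I 𝔮 : Ideal R) [h𝔮 : 𝔮.IsPrime] (hI : I ≤ 𝔮)
    (hann : Module.annihilator R M ≤ 𝔮) {t : R}
    (ht : ∀ x : M, t • x ∈ (I • ⊤ : Submodule R M)) : t ∈ 𝔮 := by
  have hrange : LinearMap.range (Algebra.lsmul R R M t) ≤ (I • ⊤ : Submodule R M) := by
    rintro _ ⟨x, rfl⟩
    exact ht x
  obtain ⟨p, hmonic, -, hcoeff, hp⟩ :=
    LinearMap.exists_monic_and_natDegree_eq_and_coeff_mem_pow_and_aeval_eq_zero R
      (Algebra.lsmul R R M t) I hrange
  rw [Polynomial.aeval_algHom_apply] at hp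
  have hmem : Polynomial.aeval t p ∈ Module.annihilator R M := by
    rw [Module.mem_annihilator]
    intro x
    have := LinearMap.congr_fun hp x
    simpa using this
  have h1 : Polynomial.aeval t p ∈ 𝔮 := hann hmem
  rw [Polynomial.aeval_def, Polynomial.eval₂_eq_sum_range, Finset.sum_range_succ,
    hmonic.coeff_natDegree, map_one, one_mul] at h1
  have h2 : ∑ k ∈ Finset.range p.natDegree, (algebraMap R R) (p.coeff k) * t ^ k ∈ 𝔮 := by
    refine Ideal.sum_mem _ fun k hk => Ideal.mul_mem_right _ _ ?_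
    rw [Finset.mem_range] at hk
    have h3 : p.coeff k ∈ I ^ (p.natDegree - k) := hcoeff k
    have h4 : I ^ (p.natDegree - k) ≤ I := Ideal.pow_le_self (by omega)
    exact hI (h4 h3)
  have h5 : t ^ p.natDegree ∈ 𝔮 := by
    have := Ideal.sub_mem _ h1 h2
    rwa [add_sub_cancel_left] at this
  exact h𝔮.mem_of_pow_mem _ h5

theorem exists_prime_comap_eq {R S : Type*} [CommRing R] [CommRing S] (g : R →+* S)
    (hg : g.IsIntegral) (𝔮 : Ideal R) [𝔮.IsPrime] (hker : RingHom.ker g ≤ 𝔮) :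
    ∃ Q : Ideal S, Q.IsPrime ∧ Q.comap g = 𝔮 := by
  let _ : Algebra R S := g.toAlgebra
  have hint : Algebra.IsIntegral R S := ⟨hg⟩
  obtain ⟨Q, -, hQ, hQ'⟩ := Ideal.exists_ideal_over_prime_of_isIntegral 𝔮 (⊥ : Ideal S) (by
    rw [← RingHom.ker_eq_comap_bot]
    exact hker)
  exact ⟨Q, hQ, hQ'⟩

end Fermat.Agent.S43lib.Patch
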