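-- Project H (S43), wiring, part 1: from a patched module over `Λ` to the input of helper1's `IABlock`
-- and from its output prime `𝔮` to a prime of the base algebra `T0`.
import Mathlib
import Fermat.Agent.TeamA.MvPS
import Fermat.Agent.S43lib.Patch.Defs
import Fermat.Agent.S43lib.Patch.Spec
import Fermat.Agent.S43lib.Patch.Supp

set_option autoImplicit false

namespace Fermat.Agent.S43lib.Patch

open IsLocalRing MvPowerSeries

variable {𝒪 Λ : Type} [CommRing 𝒪] [CommRing Λ] [Algebra 𝒪 Λ] [IsLocalRing Λ] [IsNoetherianRing Λ]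
  {ι : Type} {m d : ℕ} {T0 : Type} [CommRing T0] [Algebra Λ T0] {M0 : Type} [AddCommGroup M0]
  [Module T0 M0] (χ : Λ →ₐ[𝒪] 𝒪) (O : PatchOutput Λ m d (MvPowerSeries ι Λ) T0 M0)

theorem liftPS_X (i : ι) : liftPS (𝒪 := 𝒪) Λ ι (X i) = X i := by
  simp [liftPS, mapAlgHom_apply]

theorem liftPS_C (a : 𝒪) : liftPS (𝒪 := 𝒪) Λ ι (C a) = C (algebraMap 𝒪 Λ a) := by
  simp [liftPS, mapAlgHom_apply, Algebra.ofId_apply]

theorem C_mem_kerExt {k : Λ} (hk : k ∈ RingHom.ker (χ : Λ →+* 𝒪)) :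
    (C k : MvPowerSeries ι Λ) ∈ kerExt χ ι :=
  Ideal.mem_map_of_mem _ hk

/-- Transfer of a type relation to the specialised module. -/
theorem SpecM.smul_eq_zero_of_kill {t : MvPowerSeries ι 𝒪}
    (h : ∀ x : O.M, liftPS Λ ι t • x ∈
      (kerExt χ ι • ⊤ : Submodule (MvPowerSeries ι Λ) O.M)) (x : SpecM χ ι O.M) : t • x = 0 := by
  obtain ⟨x, rfl⟩ := SpecM.mk_surjective χ x
  rw [SpecM.smul_mk, SpecM.mk_eq_zero_iff]
  exact h x

/-- The specialised module is free over `𝒪⟦y⟧` through `specS`. -/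
theorem SpecM.free (x : SpecM χ ι O.M) :
    ∃! c : Fin d → MvPowerSeries (Fin m) 𝒪,
      x = ∑ i, specS χ O.s (c i) • SpecM.mk χ ι (O.b i) :=
  SpecM.basis χ O.s O.b O.b_basis x

/-- The specialised module is finite over `𝒪⟦ι⟧`. -/
theorem SpecM.finite : Module.Finite (MvPowerSeries ι 𝒪) (SpecM χ ι O.M) := by
  classical
  refine ⟨⟨Finset.univ.image fun i => SpecM.mk χ ι (O.b i), ?_⟩⟩
  rw [eq_top_iff]
  intro x _
  obtain ⟨c, hc, -⟩ := SpecM.free χ O x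
  rw [hc]
  refine Submodule.sum_mem _ fun i _ => Submodule.smul_mem _ _ (Submodule.subset_span ?_)
  simp

/-- The extended ideal of `ker χ + (a)`. -/
theorem kerExt_sup_span (a : Λ) :
    kerExt χ ι ⊔ Ideal.span {(C a : MvPowerSeries ι Λ)} =
      (RingHom.ker (χ : Λ →+* 𝒪) ⊔ Ideal.span {a}).map (C (σ := ι) (R := Λ)) := by
  rw [Ideal.map_sup, Ideal.map_span, Set.image_singleton]
  rfl

/-- **Comparison modulo `ϖ`** of the two specialisations. -/
theorem SpecM.hcomp (χA χB : Λ →ₐ[𝒪] 𝒪) (ϖ : 𝒪)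
    (hker : RingHom.ker (χA : Λ →+* 𝒪) ⊔ Ideal.span {algebraMap 𝒪 Λ ϖ} =
      RingHom.ker (χB : Λ →+* 𝒪) ⊔ Ideal.span {algebraMap 𝒪 Λ ϖ})
    (t : MvPowerSeries ι 𝒪)
    (h : ∀ x : SpecM χB ι O.M, ∃ x' : SpecM χB ι O.M, t • x = (C ϖ : MvPowerSeries ι 𝒪) • x')
    (x : SpecM χA ι O.M) :
    ∃ x' : SpecM χA ι O.M, t • x = (C ϖ : MvPowerSeries ι 𝒪) • x' := by
  obtain ⟨x, rfl⟩ := SpecM.mk_surjective χA x
  obtain ⟨x', hx'⟩ := h (SpecM.mk χB ι x)
  obtain ⟨x', rfl⟩ := SpecM.mk_surjective χB x'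
  rw [SpecM.smul_mk, SpecM.smul_mk, liftPS_C] at hx'
  -- `lift t • x ∈ (ker χB + ϖ) M`
  have h1 : liftPS Λ ι t • x - (C (algebraMap 𝒪 Λ ϖ) : MvPowerSeries ι Λ) • x' ∈
      (kerExt χB ι • ⊤ : Submodule (MvPowerSeries ι Λ) O.M) := by
    rw [← SpecM.mk_eq_zero_iff]
    change SpecM.mk χB ι _ - SpecM.mk χB ι _ = 0
    rw [hx', sub_self]
  have h2 : liftPS Λ ι t • x ∈ ((kerExt χB ι ⊔
      Ideal.span {(C (algebraMap 𝒪 Λ ϖ) : MvPowerSeries ι Λ)}) • ⊤ :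
        Submodule (MvPowerSeries ι Λ) O.M) := by
    rw [Submodule.sup_smul]
    have h3 : (C (algebraMap 𝒪 Λ ϖ) : MvPowerSeries ι Λ) • x' ∈
        (Ideal.span {(C (algebraMap 𝒪 Λ ϖ) : MvPowerSeries ι Λ)} • ⊤ :
          Submodule (MvPowerSeries ι Λ) O.M) :=
      Submodule.smul_mem_smul (Ideal.subset_span rfl) Submodule.mem_top
    have := Submodule.add_mem_sup h1 h3
    rwa [sub_add_cancel] at this
  rw [kerExt_sup_span, ← hker, ← kerExt_sup_span, Submodule.sup_smul] at h2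
  obtain ⟨w, hw, z, hz, hwz⟩ := Submodule.mem_sup.mp h2
  rw [Submodule.ideal_span_singleton_smul] at hz
  obtain ⟨x'', -, rfl⟩ := (Submodule.mem_smul_pointwise_iff_exists _ _ _).mp hz
  refine ⟨SpecM.mk χA ι x'', ?_⟩
  rw [SpecM.smul_mk, SpecM.smul_mk, liftPS_C, ← hwz]
  change SpecM.mk χA ι w + SpecM.mk χA ι _ = _
  rw [(SpecM.mk_eq_zero_iff χA w).mpr hw, zero_add]

section Readout

variable [Module Λ M0] [IsScalarTower Λ T0 M0] [Module.Finite Λ T0]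

/-- Elements of `(ker χ) T0 • M0` lift to `(ker χ) • M`. -/
theorem exists_mem_kerExt_smul_of_mem {z : M0}
    (hz : z ∈ (((RingHom.ker (χ : Λ →+* 𝒪)).map (algebraMap Λ T0)) • ⊤ : Submodule T0 M0)) :
    ∃ w ∈ (kerExt χ ι • ⊤ : Submodule (MvPowerSeries ι Λ) O.M), O.v w = z := by
  have key : ∀ c ∈ (RingHom.ker (χ : Λ →+* 𝒪)).map (algebraMap Λ T0), ∀ y : M0,
      ∃ w ∈ (kerExt χ ι • ⊤ : Submodule (MvPowerSeries ι Λ) O.M), O.v w = c • y := by
    intro c hc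
    unfold Ideal.map at hc
    refine Submodule.span_induction (p := fun c _ => ∀ y : M0,
      ∃ w ∈ (kerExt χ ι • ⊤ : Submodule (MvPowerSeries ι Λ) O.M), O.v w = c • y) ?_ ?_ ?_ ?_ hc
    · rintro _ ⟨k, hk, rfl⟩ y
      obtain ⟨x, rfl⟩ := O.v_surjective y
      refine ⟨(C k : MvPowerSeries ι Λ) • x,
        Submodule.smul_mem_smul (C_mem_kerExt χ hk) Submodule.mem_top, ?_⟩
      rw [O.v_smul, c_eq_algebraMap, AlgHom.commutes]
    · intro y
      exact ⟨0, Submodule.zero_mem _, by rw [map_zero, zero_smul]⟩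
    · intro c₁ c₂ _ _ h₁ h₂ y
      obtain ⟨w₁, hw₁, e₁⟩ := h₁ y
      obtain ⟨w₂, hw₂, e₂⟩ := h₂ y
      exact ⟨w₁ + w₂, Submodule.add_mem _ hw₁ hw₂, by rw [map_add, e₁, e₂, add_smul]⟩
    · intro u c₁ _ h₁ y
      obtain ⟨w, hw, e⟩ := h₁ (u • y)
      exact ⟨w, hw, by rw [e, smul_eq_mul, mul_comm, mul_smul]⟩
  refine Submodule.smul_induction_on hz ?_ ?_
  · intro c hc y _
    exact key c hc y
  · intro z₁ z₂ ⟨w₁, hw₁, e₁⟩ ⟨w₂, hw₂, e₂⟩
    exact ⟨w₁ + w₂, Submodule.add_mem _ hw₁ hw₂, by rw [map_add, e₁, e₂]⟩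

/-- The image of `(s y) • M` in the specialised module is `(specS y) • SpecM`. -/
theorem SpecM.mk_mem_of_mem_span_smul {u : O.M}
    (hu : u ∈ (Ideal.span (Set.range fun i : Fin m => O.s (X i))) •
      (⊤ : Submodule (MvPowerSeries ι Λ) O.M)) :
    SpecM.mk χ ι u ∈ (Ideal.span (Set.range fun i : Fin m => specS χ O.s (X i))) •
      (⊤ : Submodule (MvPowerSeries ι 𝒪) (SpecM χ ι O.M)) := by
  have key : ∀ a ∈ Ideal.span (Set.range fun i : Fin m => O.s (X i)), ∀ x : O.M,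
      SpecM.mk χ ι (a • x) ∈ (Ideal.span (Set.range fun i : Fin m => specS χ O.s (X i))) •
        (⊤ : Submodule (MvPowerSeries ι 𝒪) (SpecM χ ι O.M)) := by
    intro a ha
    refine Submodule.span_induction (p := fun a _ => ∀ x : O.M,
      SpecM.mk χ ι (a • x) ∈ (Ideal.span (Set.range fun i : Fin m => specS χ O.s (X i))) •
        (⊤ : Submodule (MvPowerSeries ι 𝒪) (SpecM χ ι O.M))) ?_ ?_ ?_ ?_ ha
    · rintro _ ⟨i, rfl⟩ x
      have h := SpecM.specS_smul_mk χ O.s (X i) x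
      rw [liftPS_X] at h
      rw [← h]
      exact Submodule.smul_mem_smul (Ideal.subset_span ⟨i, rfl⟩) Submodule.mem_top
    · intro x
      rw [zero_smul]
      exact Submodule.zero_mem _
    · intro a₁ a₂ _ _ h₁ h₂ x
      rw [add_smul]
      exact Submodule.add_mem _ (h₁ x) (h₂ x)
    · intro p a₁ _ h₁ x
      rw [smul_eq_mul, mul_comm, mul_smul]
      exact h₁ (p • x)
  refine Submodule.smul_induction_on hu ?_ ?_
  · intro a ha x _
    exact key a ha x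
  · intro x y hx hy
    exact Submodule.add_mem _ hx hy

/-- **From the Ihara-avoidance prime to a prime of the base algebra.** -/
theorem exists_prime_of_readout (𝔮 : Ideal (MvPowerSeries ι 𝒪)) [𝔮.IsPrime]
    (hX : ∀ i : Fin m, specS χ O.s (X i) ∈ 𝔮)
    (hann : Module.annihilator (MvPowerSeries ι 𝒪) (SpecM χ ι O.M) ≤ 𝔮) :
    ∃ 𝔭 : Ideal T0, 𝔭.IsPrime ∧ (RingHom.ker (χ : Λ →+* 𝒪)).map (algebraMap Λ T0) ≤ 𝔭 ∧
      ∀ t : MvPowerSeries ι 𝒪, O.e (liftPS Λ ι t) ∈ 𝔭 ↔ t ∈ 𝔮 := by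
  classical
  set I : Ideal T0 := (RingHom.ker (χ : Λ →+* 𝒪)).map (algebraMap Λ T0) with hI
  let g : MvPowerSeries ι 𝒪 →+* T0 ⧸ I :=
    (Ideal.Quotient.mk I).comp ((O.e : MvPowerSeries ι Λ →+* T0).comp
      (liftPS (𝒪 := 𝒪) Λ ι).toRingHom)
  have hg_apply : ∀ t, g t = Ideal.Quotient.mk I (O.e (liftPS Λ ι t)) := fun t => rfl
  -- integrality
  have hg_int : g.IsIntegral := by
    intro y
    obtain ⟨t0, rfl⟩ := Ideal.Quotient.mk_surjective y
    obtain ⟨p, hp_monic, hp_eval⟩ := Algebra.IsIntegral.isIntegral (R := Λ) t0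
    let φ : Λ →+* MvPowerSeries ι 𝒪 := (C (σ := ι) (R := 𝒪)).comp (χ : Λ →+* 𝒪)
    refine ⟨p.map φ, hp_monic.map φ, ?_⟩
    rw [Polynomial.eval₂_map]
    have hcomp : g.comp φ = (Ideal.Quotient.mk I).comp (algebraMap Λ T0) := by
      ext a
      change Ideal.Quotient.mk I (O.e (liftPS Λ ι (C (χ a)))) = Ideal.Quotient.mk I (algebraMap Λ T0 a)
      rw [liftPS_C, c_eq_algebraMap, AlgHom.commutes, Ideal.Quotient.eq, ← map_sub]
      refine Ideal.mem_map_of_mem _ ?_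
      rw [RingHom.mem_ker, map_sub]
      simp
    rw [hcomp, ← Polynomial.hom_eval₂, hp_eval, map_zero]
  -- the kernel
  have hfin : Module.Finite (MvPowerSeries ι 𝒪) (SpecM χ ι O.M) := SpecM.finite χ O
  have hker : RingHom.ker g ≤ 𝔮 := by
    intro t ht
    rw [RingHom.mem_ker, hg_apply, Ideal.Quotient.eq_zero_iff_mem] at ht
    refine mem_prime_of_smul_mem_smul_top
      (Ideal.span (Set.range fun i : Fin m => specS χ O.s (X i))) 𝔮 ?_ hann (t := t) ?_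
    · rw [Ideal.span_le]
      rintro _ ⟨i, rfl⟩
      exact hX i
    · intro x
      obtain ⟨x, rfl⟩ := SpecM.mk_surjective χ x
      rw [SpecM.smul_mk]
      have hv : O.v (liftPS Λ ι t • x) ∈ (I • ⊤ : Submodule T0 M0) := by
        rw [O.v_smul]
        exact Submodule.smul_mem_smul ht Submodule.mem_top
      obtain ⟨w, hw, hvw⟩ := exists_mem_kerExt_smul_of_mem χ O hv
      have hu : liftPS Λ ι t • x - w ∈ (Ideal.span (Set.range fun i : Fin m => O.s (X i))) •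
          (⊤ : Submodule (MvPowerSeries ι Λ) O.M) := by
        rw [← O.ker_v, map_sub, hvw, sub_self]
      have h1 := SpecM.mk_mem_of_mem_span_smul χ O hu
      have h2 : SpecM.mk χ ι (liftPS Λ ι t • x - w) = SpecM.mk χ ι (liftPS Λ ι t • x) := by
        change SpecM.mk χ ι _ - SpecM.mk χ ι w = _
        rw [(SpecM.mk_eq_zero_iff χ w).mpr hw, sub_zero]
      rwa [h2] at h1
  obtain ⟨Q, hQ, hQ'⟩ := exists_prime_comap_eq g hg_int 𝔮 hker
  refine ⟨Q.comap (Ideal.Quotient.mk I), Ideal.comap_isPrime _ _, ?_, ?_⟩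
  · intro a ha
    rw [Ideal.mem_comap, Ideal.Quotient.eq_zero_iff_mem.mpr ha]
    exact Ideal.zero_mem _
  · intro t
    rw [Ideal.mem_comap, ← hg_apply, ← Ideal.mem_comap, hQ']

end Readout

end Fermat.Agent.S43lib.Patch
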