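-- Project H (S43), wiring, part 2: `IharaBlock` from `LevelSystemBlock` and helper1's `IABlock`.
import Fermat.Agent.S43lib.PatchIface
import Fermat.Agent.S43lib.Patch.Main
import Fermat.Agent.S43lib.Patch.Wire
import Fermat.Agent.S43lib.IA.Block

set_option autoImplicit false
open WeierstrassCurve WeierstrassCurve.Affine WeierstrassCurve.Affine.Point
open FreyPackage

namespace Fermat.Agent.S43lib

open IsLocalRing MvPowerSeries Fermat.Agent.TeamA

/-- The entries of `Σ_r − 1` are the variables `X_{r,Σ,i,j}`. -/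
theorem monodromy_var_mem (𝒪 : Type) [CommRing 𝒪] {T : Type} (h : ℕ) (r : T) (i j : Fin 2) :
    (X (Sum.inl (r, true, i, j)) : MvPowerSeries (IA.Var T h) 𝒪) ∈ IA.monodromyEntries 𝒪 h r := by
  refine ⟨(i, j), ?_⟩
  simp only [IA.SigMat, Matrix.sub_apply, Matrix.of_apply, Matrix.one_apply]
  ring

/-- **The reduction of `IharaBlock` to `LevelSystemBlock` and `IABlock`.** -/
theorem iharaBlock_of_blocks (hLS : LevelSystemBlock) (hIA : IA.IABlock.{0}) : IharaBlock := by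
  intro P N q hcond hpN hq hq2 hqN hirr hmin hodd htwo
  obtain ⟨LS⟩ := hLS P N q hcond hpN hq hq2 hqN hirr hmin hodd htwo
  -- patch
  obtain ⟨O, hconst, hkill⟩ := Patch.patchStatement_holds (Λ := LS.Λ) (m := LS.m) (d := LS.d)
    (P := MvPowerSeries (IA.Var LS.T LS.h) LS.Λ) (T0 := LS.T0) (M0 := LS.M0) LS.L
  -- the type relations on the patched module
  have hkill' : ∀ (χ : LS.Λ →ₐ[LS.𝒪] LS.𝒪) (t : MvPowerSeries (IA.Var LS.T LS.h) LS.𝒪),
      (∀ n, ∀ x : (LS.L n).M, Patch.liftPS LS.Λ (IA.Var LS.T LS.h) t • x ∈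
        (Patch.kerExt χ (IA.Var LS.T LS.h) • ⊤ :
          Submodule (MvPowerSeries (IA.Var LS.T LS.h) LS.Λ) (LS.L n).M)) →
      ∀ x : O.M, Patch.liftPS LS.Λ (IA.Var LS.T LS.h) t • x ∈
        (Patch.kerExt χ (IA.Var LS.T LS.h) • ⊤ :
          Submodule (MvPowerSeries (IA.Var LS.T LS.h) LS.Λ) O.M) := by
    intro χ t ht x
    refine hkill (Ideal.span {Patch.liftPS LS.Λ (IA.Var LS.T LS.h) t})
      (RingHom.ker (χ : LS.Λ →+* LS.𝒪)) ?_ _ (Ideal.subset_span rfl) x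
    intro n r hr y
    obtain ⟨a, rfl⟩ := Ideal.mem_span_singleton'.mp hr
    rw [mul_smul]
    exact Submodule.smul_mem _ a (ht n y)
  -- the two specialisations
  have hA : ∀ r : LS.T, ∀ t ∈ IA.relsA (h := LS.h) LS.D r,
      ∀ x : Patch.SpecM LS.χA (IA.Var LS.T LS.h) O.M, t • x = 0 := fun r t ht x =>
    Patch.SpecM.smul_eq_zero_of_kill LS.χA O
      (hkill' LS.χA t fun n y => LS.killA n r t ht y) x
  have hB : ∀ r : LS.T, ∀ t ∈ IA.relsB (h := LS.h) LS.D r,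
      ∀ x : Patch.SpecM LS.χB (IA.Var LS.T LS.h) O.M, t • x = 0 := fun r t ht x =>
    Patch.SpecM.smul_eq_zero_of_kill LS.χB O
      (hkill' LS.χB t fun n y => LS.killB n r t ht y) x
  -- the augmentation ideal of `S`
  have h𝔞 : (RingHom.ker (constantCoeff (σ := Fin LS.m) (R := LS.𝒪))).IsPrime :=
    RingHom.ker_isPrime _
  obtain ⟨𝔮, h𝔮, hcomap, hann, hmono⟩ := hIA LS.𝒪 LS.ϖ LS.ϖ_ne_zero LS.maximalIdeal_eq
    LS.isUnit_two LS.T LS.h LS.m LS.hm LS.D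
    (Patch.specS LS.χA O.s) (Patch.specS LS.χB O.s)
    (Patch.SpecM LS.χA (IA.Var LS.T LS.h) O.M) (Patch.SpecM LS.χB (IA.Var LS.T LS.h) O.M)
    hA hB LS.d LS.d LS.hd
    ⟨fun i => Patch.SpecM.mk LS.χA _ (O.b i), Patch.SpecM.free LS.χA O⟩
    ⟨fun i => Patch.SpecM.mk LS.χB _ (O.b i), Patch.SpecM.free LS.χB O⟩
    (fun t ht x => Patch.SpecM.hcomp O LS.χA LS.χB LS.ϖ LS.ker_sup t ht x)
    (RingHom.ker (constantCoeff (σ := Fin LS.m) (R := LS.𝒪)))
  -- the prime of the base algebra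
  have hX : ∀ i : Fin LS.m, Patch.specS LS.χB O.s (X i) ∈ 𝔮 := by
    intro i
    have : (X i : MvPowerSeries (Fin LS.m) LS.𝒪) ∈
        𝔮.comap (Patch.specS LS.χB O.s).toRingHom := by
      rw [hcomap, RingHom.mem_ker, constantCoeff_X]
    exact this
  obtain ⟨𝔭, h𝔭, hle, hiff⟩ := Patch.exists_prime_of_readout LS.χB O 𝔮 hX hann
  refine hmin.2 (N / q) (Nat.div_dvd_of_dvd hqN)
    (Nat.div_lt_self hcond.pos hq.one_lt).ne (LS.readout 𝔭 h𝔭 hle ?_ ?_)
  · -- `ϖ ∉ 𝔭`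
    intro hϖ
    have h1 : O.e (Patch.liftPS LS.Λ (IA.Var LS.T LS.h) (C LS.ϖ)) ∈ 𝔭 := by
      rw [Patch.liftPS_C, c_eq_algebraMap, AlgHom.commutes]
      exact hϖ
    have h2 : (C LS.ϖ : MvPowerSeries (IA.Var LS.T LS.h) LS.𝒪) ∈ 𝔮 := (hiff _).mp h1
    have h3 : (C LS.ϖ : MvPowerSeries (Fin LS.m) LS.𝒪) ∈
        𝔮.comap (Patch.specS LS.χB O.s).toRingHom := by
      rw [Ideal.mem_comap]
      have : (Patch.specS LS.χB O.s).toRingHom (C LS.ϖ) =
          (C LS.ϖ : MvPowerSeries (IA.Var LS.T LS.h) LS.𝒪) := by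
        change Patch.specS LS.χB O.s (C LS.ϖ) = _
        rw [c_eq_algebraMap, c_eq_algebraMap, AlgHom.commutes]
      rw [this]
      exact h2
    rw [hcomap, RingHom.mem_ker, constantCoeff_C] at h3
    exact LS.ϖ_ne_zero h3
  · -- the monodromy at `q`
    intro i j
    have h1 : (X (Sum.inl (LS.q₀, true, i, j)) : MvPowerSeries (IA.Var LS.T LS.h) LS.𝒪) ∈ 𝔮 :=
      hmono LS.q₀ (monodromy_var_mem LS.𝒪 LS.h LS.q₀ i j)
    have h2 := (hiff _).mpr h1
    rw [Patch.liftPS_X, hconst _ (LS.τ i j) fun n => LS.e_mono n i j] at h2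
    exact h2

end Fermat.Agent.S43lib
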