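-- Project H (S43), block H-PATCH, second form of the patching theorem: two more transfer clauses.
--
--   (iii) VARYING ANNIHILATORS.  Let `P₀` be a second complete Noetherian local ring with finite
--         residue field, `j : P₀ →+* P` a local ring map, `a b : P` and `c : ℕ → P₀`.  If
--         `a + j (c n) * b` kills the level-`n` module for every `n`, then `a + j cI * b` kills the
--         patched module for some `cI : P₀` which is, for every `k`, congruent modulo `𝔪^k` to some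
--         `c n`.
--   (iv)  CONSTANT STRUCTURE MAP.  If `(L n).s f = g` for all `n` then `O.s f = g`.
--   (v)   IDEALS OF THE BASE ALGEBRA.  If `(L n).e r ∈ J` for all `n` (`J` an ideal of `T0`) then
--         `O.e r ∈ J`.
--   (vi)  GENERATION.  If `t : T0` lies in the ideal generated by the `(L n).e (r i)` for all `n`, it
--         lies in the ideal generated by the `O.e (r i)`.
import Mathlib
import Fermat.Agent.TeamA.MvPS
import Fermat.Agent.S43lib.Patch.Main

set_option autoImplicit false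

namespace Fermat.Agent.S43lib.Patch

open IsLocalRing MvPowerSeries Fermat.Agent.TeamA Filter

/-- **Block H-PATCH, second form.** -/
def PatchStatement₂ (Λ : Type) [CommRing Λ] (m d : ℕ) (P : Type) [CommRing P] [IsLocalRing P]
    [Algebra Λ P] (T0 : Type) [CommRing T0] [Algebra Λ T0] (M0 : Type) [AddCommGroup M0]
    [Module T0 M0] [IsLocalRing (MvPowerSeries (Fin m) Λ)] : Prop :=
  ∀ L : ∀ n : ℕ, PatchLevel Λ m d P T0 M0 n,
    ∃ O : PatchOutput Λ m d P T0 M0,
      (∀ (r : P) (t : T0), (∀ n, (L n).e r = t) → O.e r = t) ∧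
      (∀ (J : Ideal P) (𝔨 : Ideal Λ),
        (∀ n, ∀ r ∈ J, ∀ x : (L n).M,
          r • x ∈ (𝔨.map (algebraMap Λ P)) • (⊤ : Submodule P (L n).M)) →
        ∀ r ∈ J, ∀ x : O.M, r • x ∈ (𝔨.map (algebraMap Λ P)) • (⊤ : Submodule P O.M)) ∧
      (∀ (P₀ : Type) [CommRing P₀] [IsLocalRing P₀] [IsNoetherianRing P₀]
        [IsAdicComplete (maximalIdeal P₀) P₀] [Finite (ResidueField P₀)] (j : P₀ →+* P),
        (∀ x ∈ maximalIdeal P₀, j x ∈ maximalIdeal P) → ∀ (a b : P) (c : ℕ → P₀),
        (∀ n, ∀ x : (L n).M, (a + j (c n) * b) • x = 0) →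
        ∃ cI : P₀, (∀ k : ℕ, ∃ n, c n - cI ∈ maximalIdeal P₀ ^ k) ∧
          ∀ x : O.M, (a + j cI * b) • x = 0) ∧
      (∀ (f : MvPowerSeries (Fin m) Λ) (g : P), (∀ n, (L n).s f = g) → O.s f = g) ∧
      (∀ (r : P) (J : Ideal T0), (∀ n, (L n).e r ∈ J) → O.e r ∈ J) ∧
      (∀ (κ : Type) [Fintype κ] (r : κ → P) (t : T0),
        (∀ n, t ∈ Ideal.span (Set.range fun i => (L n).e (r i))) →
        t ∈ Ideal.span (Set.range fun i => O.e (r i)))

variable {Λ : Type} [CommRing Λ] [IsLocalRing Λ] [IsNoetherianRing Λ]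
  [IsAdicComplete (maximalIdeal Λ) Λ] [Finite (ResidueField Λ)] {m d : ℕ}
  {P : Type} [CommRing P] [IsLocalRing P] [IsNoetherianRing P]
  [IsAdicComplete (maximalIdeal P) P] [Finite (ResidueField P)] [Algebra Λ P]
  {T0 : Type} [CommRing T0] [Algebra Λ T0] [Module.Finite Λ T0]
  {M0 : Type} [AddCommGroup M0] [Module Λ M0] [Module T0 M0] [IsScalarTower Λ T0 M0]
  [Module.Finite Λ M0]
  (L : ∀ n : ℕ, PatchLevel Λ m d P T0 M0 n)

local notation "𝔪S" => maximalIdeal (MvPowerSeries (Fin m) Λ)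
local notation "𝔪P" => maximalIdeal P

/-- Elements that are `𝔘`-close to annihilators of the levels annihilate the patched module. -/
theorem PM_kill_of_near (r : P) (ρ : ℕ → P) (hρ : ∀ n, ∀ x : (L n).M, ρ n • x = 0)
    (hnear : ∀ C : ℕ, ∀ᶠ n in (𝔘 : Filter ℕ), r - ρ n ∈ 𝔪P ^ C) (c : PM L) : r • c = 0 := by
  change A L r c = 0
  unfold A
  apply ulim_eq
  intro k
  have hb : ∀ n, (L n).bound k = (L 0).bound k := fun n => rfl
  filter_upwards [eventually_ge_𝔘 k, hnear ((L 0).bound k)] with n hn hn'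
  obtain ⟨c', hc', e'⟩ := (L n).exists_small_of_mem_pow k (r := r - ρ n)
    (by rw [hb n]; exact hn') ((L n).Φ c)
  have h1 : Near 𝔪S n ((L n).act r c) c' := by
    apply (L n).near_of_Φ_eq
    rw [(L n).Φ_act, ← e', sub_smul, hρ n, sub_zero]
  have h2 : Near 𝔪S k c' 0 := by
    rw [near_pi_iff]
    intro j
    rw [Pi.zero_apply, sub_zero]
    exact hc' j
  exact (h1.mono hn).trans h2

/-- Clause (iii). -/
theorem PM_kill_seq (P₀ : Type) [CommRing P₀] [IsLocalRing P₀] [IsNoetherianRing P₀]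
    [IsAdicComplete (maximalIdeal P₀) P₀] [Finite (ResidueField P₀)] (j : P₀ →+* P)
    (hj : ∀ x ∈ maximalIdeal P₀, j x ∈ maximalIdeal P) (a b : P) (c : ℕ → P₀)
    (h : ∀ n, ∀ x : (L n).M, (a + j (c n) * b) • x = 0) :
    ∃ cI : P₀, (∀ k : ℕ, ∃ n, c n - cI ∈ maximalIdeal P₀ ^ k) ∧
      ∀ x : PM L, (a + j cI * b) • x = 0 := by
  refine ⟨ulim (maximalIdeal P₀) c, fun k => ?_, fun x => ?_⟩
  · obtain ⟨n, hn⟩ := (ulim_spec (maximalIdeal P₀) c k).exists
    rw [near_ring_iff] at hn
    exact ⟨n, hn⟩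
  · refine PM_kill_of_near L _ (fun n => a + j (c n) * b) h (fun C => ?_) x
    filter_upwards [ulim_spec (maximalIdeal P₀) c C] with n hn
    rw [near_ring_iff] at hn
    have hmap : j (ulim (maximalIdeal P₀) c - c n) ∈ 𝔪P ^ C := by
      have hle : (maximalIdeal P₀ ^ C).map j ≤ 𝔪P ^ C := by
        rw [Ideal.map_pow]
        refine Ideal.pow_right_mono ?_ C
        rw [Ideal.map_le_iff_le_comap]
        intro x hx
        exact hj x hx
      refine hle (Ideal.mem_map_of_mem j ?_)
      have := Ideal.neg_mem_iff (maximalIdeal P₀ ^ C) |>.mpr hn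
      rwa [neg_sub] at this
    have e : a + j (ulim (maximalIdeal P₀) c) * b - (a + j (c n) * b) =
        j (ulim (maximalIdeal P₀) c - c n) * b := by
      rw [map_sub]
      ring
    rw [e]
    exact Ideal.mul_mem_right _ _ hmap

/-- Clause (iv). -/
theorem sInf_const {f : MvPowerSeries (Fin m) Λ} {g : P} (h : ∀ n, (L n).s f = g) :
    sInf L f = g := by
  rw [← sub_eq_zero]
  apply IsHausdorff.haus (inferInstance : IsHausdorff 𝔪P P)
  intro C
  rw [SModEq.zero, smul_eq_mul, Ideal.mul_top]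
  obtain ⟨n, hn⟩ := (sInf_near L C).exists
  rw [← h n]
  exact hn f

/-- Clause (v). -/
theorem eInf_mem_of_forall_mem {r : P} (J : Ideal T0) (h : ∀ n, (L n).e r ∈ J) :
    eInf L r ∈ J := by
  rw [eInf_apply]
  have := ulim_mem_of_forall_mem (R := Λ) (X := T0) (J.restrictScalars Λ)
    (a := fun n => (L n).e r) (fun n => h n)
  exact this

/-- Clause (vi). -/
theorem eInf_span_of_forall_span {κ : Type} [Fintype κ] (r : κ → P) (t : T0)
    (h : ∀ n, t ∈ Ideal.span (Set.range fun i => (L n).e (r i))) :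
    t ∈ Ideal.span (Set.range fun i => eInf L (r i)) := by
  have hex : ∀ n, ∃ a : κ → T0, ∑ i, a i * (L n).e (r i) = t := fun n =>
    (Ideal.mem_span_range_iff_exists_fun).mp (h n)
  choose a ha using hex
  rw [Ideal.mem_span_range_iff_exists_fun]
  refine ⟨fun i => ulim (maximalIdeal Λ) (fun n => a n i), ?_⟩
  have key : ulim (maximalIdeal Λ) (fun n => ∑ i, a n i * (L n).e (r i)) =
      ∑ i, ulim (maximalIdeal Λ) (fun n => a n i) * eInf L (r i) := by
    apply ulim_eq
    intro k
    have hall : ∀ᶠ n in (𝔘 : Filter ℕ), ∀ i : κ,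
        Near (maximalIdeal Λ) k (a n i) (ulim (maximalIdeal Λ) (fun n => a n i)) ∧
          Near (maximalIdeal Λ) k ((L n).e (r i)) (eInf L (r i)) := by
      rw [eventually_all]
      intro i
      exact (ulim_spec (maximalIdeal Λ) (fun n => a n i) k).and (eInfFun_spec L (r i) k)
    filter_upwards [hall] with n hn
    exact near_sum Finset.univ fun i _ => (hn i).1.mul_algebra (hn i).2
  rw [← key]
  simp only [ha]
  exact ulim_const (maximalIdeal Λ) t

/-- **The patching theorem, second form.** -/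
theorem patchStatement₂_holds : PatchStatement₂ Λ m d P T0 M0 := by
  intro L
  refine ⟨patchOutput L, ?_, ?_, ?_, ?_, ?_, ?_⟩
  · intro r t h
    exact eInf_const L h
  · intro J 𝔨 h r hr x
    exact PM_kill L J 𝔨 h hr x
  · intro P₀ _ _ _ _ _ j hj a b c h
    exact PM_kill_seq L P₀ j hj a b c h
  · intro f g h
    exact sInf_const L h
  · intro r J h
    exact eInf_mem_of_forall_mem L J h
  · intro κ _ r t h
    exact eInf_span_of_forall_span L r t h

end Fermat.Agent.S43lib.Patch
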