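-- Project H (S43), wiring: restriction of scalars `ResM` and lying over for supports.
--
-- `φ : R → R'`, `M` an `R'`-module which is finite over `R` (through `φ`).  Above every prime `𝔮` of `R`
-- containing `Ann_R M` there is a prime `𝔮'` of `R'` containing `Ann_R' M`.
import Mathlib
import Fermat.Agent.S43lib.Patch.Supp

set_option autoImplicit false

namespace Fermat.Agent.S43lib.Patch

open Polynomial

section ResM

variable {R R' : Type} [CommRing R] [CommRing R']

/-- Restriction of scalars along `φ`, as a type synonym carrying both module structures. -/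
def ResM (_φ : R →+* R') (M : Type) : Type := M

variable (φ : R →+* R') (M : Type) [AddCommGroup M] [Module R' M]

instance : AddCommGroup (ResM φ M) := inferInstanceAs (AddCommGroup M)

instance ResM.instModuleBig : Module R' (ResM φ M) := inferInstanceAs (Module R' M)

instance ResM.instModuleSmall : Module R (ResM φ M) := Module.compHom M φ

variable {M}

theorem ResM.smul_def (t : R) (x : ResM φ M) :
    t • x = (φ t • x : ResM φ M) := rfl

/-- The identity map into the restriction of scalars. -/
def ResM.of (x : M) : ResM φ M := x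

theorem ResM.smul_of (t : R) (x : M) : t • ResM.of φ x = ResM.of φ (φ t • x) := rfl

theorem ResM.of_sum {κ : Type} (u : Finset κ) (x : κ → M) :
    ResM.of φ (∑ k ∈ u, x k) = ∑ k ∈ u, ResM.of φ (x k) := rfl

end ResM

section LieOver

variable {R R' : Type} [CommRing R] [CommRing R'] (φ : R →+* R') {M : Type} [AddCommGroup M]
  [Module R M] [Module R' M] (hcompat : ∀ (t : R) (x : M), t • x = φ t • x)

include hcompat in
/-- Multiplication by `r' : R'` as an `R`-linear endomorphism. -/
theorem exists_monic_eval₂_smul_eq_zero [Module.Finite R M] (r' : R') :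
    ∃ p : R[X], p.Monic ∧ ∀ x : M, (p.eval₂ φ r') • x = 0 := by
  let ℓ : M →ₗ[R] M :=
    { toFun := fun x => r' • x
      map_add' := fun x y => smul_add _ _ _
      map_smul' := fun t x => by
        simp only [RingHom.id_apply]
        rw [hcompat, hcompat, smul_comm] }
  obtain ⟨p, hmonic, hp⟩ := LinearMap.exists_monic_and_aeval_eq_zero R ℓ
  refine ⟨p, hmonic, fun x => ?_⟩
  have key : ∀ q : R[X], ∀ y : M, (Polynomial.aeval ℓ q) y = (q.eval₂ φ r') • y := by
    intro q
    induction q using Polynomial.induction_on' with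
    | add q₁ q₂ h₁ h₂ =>
      intro y
      rw [map_add, LinearMap.add_apply, h₁, h₂, Polynomial.eval₂_add, add_smul]
    | monomial n a =>
      intro y
      rw [Polynomial.aeval_monomial, Polynomial.eval₂_monomial, mul_smul]
      have hpow : ∀ (k : ℕ) (z : M), (ℓ ^ k) z = r' ^ k • z := by
        intro k
        induction k with
        | zero => intro z; simp
        | succ k ih =>
          intro z
          rw [pow_succ, Module.End.mul_apply, ih, pow_succ, mul_smul]
          rfl
      rw [Module.End.mul_apply, hpow, Module.algebraMap_end_apply, hcompat]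
  rw [← key, hp]
  rfl

include hcompat in
/-- **Lying over for supports.** -/
theorem exists_prime_comap_eq_of_annihilator_le [Module.Finite R M] (𝔮 : Ideal R) [𝔮.IsPrime]
    (hann : Module.annihilator R M ≤ 𝔮) :
    ∃ 𝔮' : Ideal R', 𝔮'.IsPrime ∧ 𝔮'.comap φ = 𝔮 ∧ Module.annihilator R' M ≤ 𝔮' := by
  set I : Ideal R' := Module.annihilator R' M with hI
  let g : R →+* R' ⧸ I := (Ideal.Quotient.mk I).comp φ
  have hint : g.IsIntegral := by
    intro y
    obtain ⟨r', rfl⟩ := Ideal.Quotient.mk_surjective y
    obtain ⟨p, hmonic, hp⟩ := exists_monic_eval₂_smul_eq_zero φ hcompat r'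
    refine ⟨p, hmonic, ?_⟩
    have h1 : p.eval₂ g (Ideal.Quotient.mk I r') = Ideal.Quotient.mk I (p.eval₂ φ r') := by
      rw [Polynomial.hom_eval₂]
    rw [h1, Ideal.Quotient.eq_zero_iff_mem, hI, Module.mem_annihilator]
    exact hp
  have hker : RingHom.ker g ≤ 𝔮 := by
    intro t ht
    rw [RingHom.mem_ker] at ht
    change Ideal.Quotient.mk I (φ t) = 0 at ht
    rw [Ideal.Quotient.eq_zero_iff_mem, hI, Module.mem_annihilator] at ht
    apply hann
    rw [Module.mem_annihilator]
    intro x
    rw [hcompat]
    exact ht x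
  obtain ⟨Q, hQ, hQ'⟩ := exists_prime_comap_eq g hint 𝔮 hker
  refine ⟨Q.comap (Ideal.Quotient.mk I), Ideal.comap_isPrime _ _, ?_, ?_⟩
  · rw [Ideal.comap_comap]
    exact hQ'
  · intro a ha
    rw [Ideal.mem_comap, Ideal.Quotient.eq_zero_iff_mem.mpr ha]
    exact Ideal.zero_mem _

end LieOver

end Fermat.Agent.S43lib.Patch
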