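-- Project H (S43), block H-PATCH: the even/odd decomposition of power series.
--
-- `R⟦z_1,…,z_m⟧` is free over `R⟦z_1²,…,z_m²⟧` (embedded by `sq : w_i ↦ z_i²`) with basis the
-- squarefree monomials `z^ε`, `ε : σ → Bool`; consequently a module which is free of rank `d` over
-- `R⟦z⟧` is free of rank `2^m d` over `R⟦w⟧` through `sq`.
import Mathlib

set_option autoImplicit false

namespace Fermat.Agent.S43lib.Patch

open MvPowerSeries

section EvenOdd

variable {σ : Type} [Fintype σ] [DecidableEq σ] {R : Type} [CommRing R]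

/-- The substitution `w_i ↦ z_i²`. -/
noncomputable def sq : MvPowerSeries σ R →ₐ[R] MvPowerSeries σ R :=
  MvPowerSeries.expand 2 two_ne_zero

/-- The exponent vector of a squarefree monomial. -/
noncomputable def vec (ε : σ → Bool) : σ →₀ ℕ :=
  Finsupp.equivFunOnFinite.symm fun i => if ε i then 1 else 0

omit [DecidableEq σ] in
@[simp] theorem vec_apply (ε : σ → Bool) (i : σ) : vec ε i = if ε i then 1 else 0 := rfl

/-- The parity vector of an exponent vector. -/
def par (d : σ →₀ ℕ) : σ → Bool := fun i => decide (d i % 2 = 1)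

/-- Half of an exponent vector. -/
noncomputable def half (d : σ →₀ ℕ) : σ →₀ ℕ := d.mapRange (· / 2) (by simp)

omit [Fintype σ] [DecidableEq σ] in
@[simp] theorem half_apply (d : σ →₀ ℕ) (i : σ) : half d i = d i / 2 := by
  simp [half]

omit [DecidableEq σ] in
theorem two_half_add (d : σ →₀ ℕ) : 2 • half d + vec (par d) = d := by
  ext i
  simp only [Finsupp.coe_add, Finsupp.coe_smul, Pi.add_apply, Pi.smul_apply, half_apply,
    vec_apply, par, smul_eq_mul, decide_eq_true_eq]
  split_ifs <;> omega

omit [Fintype σ] [DecidableEq σ] in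
theorem par_apply_eq_true (d : σ →₀ ℕ) (i : σ) : par d i = true ↔ d i % 2 = 1 := by
  simp [par]

omit [DecidableEq σ] in
theorem par_add (e : σ →₀ ℕ) (ε : σ → Bool) : par (2 • e + vec ε) = ε := by
  funext i
  rw [Bool.eq_iff_iff, par_apply_eq_true]
  simp only [Finsupp.coe_add, Finsupp.coe_smul, Pi.add_apply, Pi.smul_apply, vec_apply,
    smul_eq_mul]
  by_cases h : ε i = true
  · rw [if_pos h]
    constructor
    · intro _
      exact h
    · intro _
      omega
  · rw [if_neg h]
    constructor
    · intro h'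
      omega
    · intro h'
      exact absurd h' h

omit [DecidableEq σ] in
theorem half_add (e : σ →₀ ℕ) (ε : σ → Bool) : half (2 • e + vec ε) = e := by
  ext i
  simp only [half_apply, Finsupp.coe_add, Finsupp.coe_smul, Pi.add_apply, Pi.smul_apply, vec_apply,
    smul_eq_mul]
  split_ifs <;> omega

omit [DecidableEq σ] in
/-- The coefficients of `z^ε · g(z²)`. -/
theorem coeff_vec_mul_sq (ε : σ → Bool) (g : MvPowerSeries σ R) (d : σ →₀ ℕ) :
    coeff d (monomial (vec ε) (1 : R) * sq g) = if par d = ε then coeff (half d) g else 0 := by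
  classical
  rw [coeff_monomial_mul, one_mul]
  by_cases h : par d = ε
  · rw [if_pos h]
    have hd : d = 2 • half d + vec ε := by rw [← h, two_half_add]
    have hle : vec ε ≤ d := by
      rw [hd]
      exact le_add_self
    rw [if_pos hle]
    have hsub : d - vec ε = 2 • half d := by
      conv_lhs => rw [hd]
      exact add_tsub_cancel_right _ _
    rw [hsub]
    exact coeff_expand_smul 2 two_ne_zero g (half d)
  · rw [if_neg h]
    split_ifs with hle
    · obtain ⟨i, hi⟩ := Function.ne_iff.mp h
      apply coeff_expand_of_not_dvd 2 two_ne_zero g (i := i)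
      have hlei := hle i
      simp only [par, vec_apply] at hi hlei
      rw [Finsupp.tsub_apply, vec_apply]
      cases hε : ε i <;> simp [hε] at hi hlei ⊢ <;> omega
    · rfl

/-- The `ε`-component of a power series. -/
noncomputable def comp (f : MvPowerSeries σ R) (ε : σ → Bool) : MvPowerSeries σ R :=
  fun e => coeff (2 • e + vec ε) f

omit [DecidableEq σ] in
theorem coeff_comp (f : MvPowerSeries σ R) (ε : σ → Bool) (e : σ →₀ ℕ) :
    coeff e (comp f ε) = coeff (2 • e + vec ε) f := rfl

/-- **Existence of the even/odd decomposition.** -/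
theorem sum_vec_mul_sq_comp (f : MvPowerSeries σ R) :
    ∑ ε : σ → Bool, monomial (vec ε) (1 : R) * sq (comp f ε) = f := by
  ext d
  rw [map_sum]
  simp only [coeff_vec_mul_sq]
  rw [Finset.sum_ite_eq Finset.univ (par d)]
  simp only [Finset.mem_univ, if_true]
  rw [coeff_comp, two_half_add]

/-- **Uniqueness of the even/odd decomposition.** -/
theorem eq_comp_of_sum_eq {f : MvPowerSeries σ R} {g : (σ → Bool) → MvPowerSeries σ R}
    (h : ∑ ε : σ → Bool, monomial (vec ε) (1 : R) * sq (g ε) = f) (ε : σ → Bool) :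
    g ε = comp f ε := by
  ext e
  rw [coeff_comp, ← h, map_sum]
  simp only [coeff_vec_mul_sq, par_add, half_add]
  rw [Finset.sum_ite_eq Finset.univ ε]
  simp

end EvenOdd

section Module

variable {σ : Type} [Fintype σ] [DecidableEq σ] {R : Type} [CommRing R]
  {P : Type} [CommRing P] {M : Type} [AddCommGroup M] [Module P M]

/-- A module which is free over `R⟦z⟧` through `s` is free over `R⟦w⟧` through `s ∘ sq`, with basis
`z^ε b_i`. -/
theorem existsUnique_sq_of_existsUnique (s : MvPowerSeries σ R →+* P) {d : ℕ} (b : Fin d → M)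
    (hb : ∀ x : M, ∃! c : Fin d → MvPowerSeries σ R, x = ∑ i, s (c i) • b i) (x : M) :
    ∃! c : (σ → Bool) × Fin d → MvPowerSeries σ R,
      x = ∑ p, s (sq (c p)) • (s (monomial (vec p.1) (1 : R)) • b p.2) := by
  have key : ∀ c : (σ → Bool) × Fin d → MvPowerSeries σ R,
      ∑ p, s (sq (c p)) • (s (monomial (vec p.1) (1 : R)) • b p.2) =
        ∑ i, s (∑ ε : σ → Bool, monomial (vec ε) (1 : R) * sq (c (ε, i))) • b i := by
    intro c
    rw [Fintype.sum_prod_type, Finset.sum_comm]
    refine Finset.sum_congr rfl fun i _ => ?_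
    rw [map_sum, Finset.sum_smul]
    refine Finset.sum_congr rfl fun ε _ => ?_
    rw [map_mul, mul_comm, mul_smul]
  obtain ⟨c₀, hc₀, huniq⟩ := hb x
  refine ⟨fun p => comp (c₀ p.2) p.1, ?_, ?_⟩
  · simp only
    rw [key, hc₀]
    refine Finset.sum_congr rfl fun i _ => ?_
    change _ = s (∑ ε : σ → Bool, monomial (vec ε) (1 : R) * sq (comp (c₀ i) ε)) • b i
    rw [sum_vec_mul_sq_comp]
  · intro c hc
    rw [key] at hc
    have h1 := huniq _ hc
    funext p
    obtain ⟨ε, i⟩ := p
    exact eq_comp_of_sum_eq (congrFun h1 i) ε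

end Module

section Reindex

variable {S P : Type} [CommRing S] [CommRing P] {M : Type} [AddCommGroup M] [Module P M]

/-- Reindexing a basis by `Fin`. -/
theorem exists_fin_basis {κ : Type} [Fintype κ] (s : S → P) (b : κ → M)
    (hb : ∀ x : M, ∃! c : κ → S, x = ∑ p, s (c p) • b p) :
    ∃ b' : Fin (Fintype.card κ) → M, ∀ x : M,
      ∃! c : Fin (Fintype.card κ) → S, x = ∑ i, s (c i) • b' i := by
  classical
  let e := Fintype.equivFin κ
  refine ⟨fun i => b (e.symm i), fun x => ?_⟩
  obtain ⟨c, hc, huniq⟩ := hb x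
  have key : ∀ c' : Fin (Fintype.card κ) → S,
      ∑ i, s (c' i) • b (e.symm i) = ∑ p, s (c' (e p)) • b p := by
    intro c'
    refine (Fintype.sum_equiv e _ _ fun p => ?_).symm
    rw [Equiv.symm_apply_apply]
  refine ⟨fun i => c (e.symm i), ?_, ?_⟩
  · simp only
    rw [key]
    simpa using hc
  · intro c' hc'
    rw [key] at hc'
    have h1 := huniq _ hc'
    funext i
    have := congrFun h1 (e.symm i)
    simpa using this

end Reindex

end Fermat.Agent.S43lib.Patch
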