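-- Project H (S43), wiring for the second form: from a module patched over `Λ⟦ι ⊕ Fin m⟧` (free over
-- `Λ⟦z⟧`, with `z_i² = c_i ∈ Λ⟦ι⟧`) to the input of helper1's `IABlock` over `𝒪⟦ι⟧`, `S = 𝒪⟦w⟧`.
import Mathlib
import Fermat.Agent.TeamA.MvPS
import Fermat.Agent.S56lib.Dict.PowerSeriesSurj
import Fermat.Agent.S43lib.Patch.Defs
import Fermat.Agent.S43lib.Patch.Spec
import Fermat.Agent.S43lib.Patch.Wire
import Fermat.Agent.S43lib.Patch.Sq
import Fermat.Agent.S43lib.Patch.SqAct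
import Fermat.Agent.S43lib.Patch.LieOver

set_option autoImplicit false

namespace Fermat.Agent.S43lib.Patch

open IsLocalRing MvPowerSeries Fermat.Agent.TeamA

section Local

variable {𝒪 Λ : Type} [CommRing 𝒪] [CommRing Λ] [Algebra 𝒪 Λ] [IsLocalRing 𝒪] [IsLocalRing Λ]
  (χ : Λ →ₐ[𝒪] 𝒪) {ι : Type}

/-- An augmentation of a local ring is a local map. -/
theorem χ_mem_maximalIdeal {a : Λ} (ha : a ∈ maximalIdeal Λ) : χ a ∈ maximalIdeal 𝒪 := by
  by_contra h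
  have hu : IsUnit (χ a) := by
    by_contra h'
    exact h ((mem_maximalIdeal _).mpr h')
  obtain ⟨u, hu⟩ := hu
  -- `a - algebraMap (χ a)` is in the kernel, and `algebraMap (χ a)` is a unit
  have h1 : IsUnit (algebraMap 𝒪 Λ (χ a)) := by
    rw [← hu]
    exact (u.isUnit).map (algebraMap 𝒪 Λ)
  have h2 : a - algebraMap 𝒪 Λ (χ a) ∈ maximalIdeal Λ := by
    rw [mem_maximalIdeal, mem_nonunits_iff]
    intro h3
    have h4 : IsUnit (χ (a - algebraMap 𝒪 Λ (χ a))) := h3.map χ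
    rw [map_sub, AlgHom.commutes, Algebra.algebraMap_self, RingHom.id_apply, sub_self] at h4
    exact not_isUnit_zero h4
  have h5 : algebraMap 𝒪 Λ (χ a) ∈ maximalIdeal Λ := by
    have := Ideal.sub_mem _ ha h2
    rwa [sub_sub_cancel] at this
  exact ((mem_maximalIdeal _).mp h5) h1

theorem downPS_mem_maximalIdeal {u : MvPowerSeries ι Λ}
    (hu : u ∈ maximalIdeal (MvPowerSeries ι Λ)) :
    downPS χ ι u ∈ maximalIdeal (MvPowerSeries ι 𝒪) := by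
  rw [mem_maximalIdeal_mvPowerSeries_iff] at hu ⊢
  have : constantCoeff (downPS χ ι u) = χ (constantCoeff u) := by
    rw [← coeff_zero_eq_constantCoeff_apply, coeff_downPS, coeff_zero_eq_constantCoeff_apply]
  rw [this]
  exact χ_mem_maximalIdeal χ hu

end Local

section Rename

variable {𝒪 Λ : Type} [CommRing 𝒪] [CommRing Λ] [Algebra 𝒪 Λ] (χ : Λ →ₐ[𝒪] 𝒪) {ι : Type} [Finite ι]
  {m : ℕ}

theorem downPS_rename (u : MvPowerSeries ι Λ) :
    downPS χ (ι ⊕ Fin m) (rename Sum.inl u) = rename Sum.inl (downPS χ ι u) := by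
  unfold downPS
  rw [mapAlgHom_apply, mapAlgHom_apply]
  exact (rename_map (Sum.inl : ι → ι ⊕ Fin m) (χ : Λ →+* 𝒪) u).symm

end Rename

variable {𝒪 Λ : Type} [CommRing 𝒪] [CommRing Λ] [Algebra 𝒪 Λ] [IsLocalRing 𝒪] [IsNoetherianRing 𝒪]
  [IsAdicComplete (maximalIdeal 𝒪) 𝒪] [IsLocalRing Λ] [IsNoetherianRing Λ]
  {ι : Type} [Finite ι] {m d : ℕ} {T0 : Type} [CommRing T0] [Algebra Λ T0] {M0 : Type}
  [AddCommGroup M0] [Module T0 M0] (χ : Λ →ₐ[𝒪] 𝒪)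
  (O : PatchOutput Λ m d (MvPowerSeries (ι ⊕ Fin m) Λ) T0 M0)
  (c : Fin m → MvPowerSeries ι Λ) (hc : ∀ i, c i ∈ maximalIdeal (MvPowerSeries ι Λ))

/-- The structure map `𝒪⟦w⟧ → 𝒪⟦ι⟧`, `w_i ↦` the specialisation of `c_i`. -/
noncomputable def specSq : MvPowerSeries (Fin m) 𝒪 →ₐ[𝒪] MvPowerSeries ι 𝒪 :=
  Classical.choose (Fermat.Agent.S56lib.Dict.exists_eval (𝒪 := 𝒪)
    (fun i => downPS χ ι (c i)) (fun i => downPS_mem_maximalIdeal χ (hc i)))

theorem specSq_X (i : Fin m) : specSq χ c hc (X i) = downPS χ ι (c i) :=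
  Classical.choose_spec (Fermat.Agent.S56lib.Dict.exists_eval (𝒪 := 𝒪)
    (fun i => downPS χ ι (c i)) (fun i => downPS_mem_maximalIdeal χ (hc i))) i

/-- The inclusion `𝒪⟦ι⟧ → 𝒪⟦ι ⊕ Fin m⟧`. -/
noncomputable def inlPS (𝒪 : Type) [CommRing 𝒪] (ι : Type) [Finite ι] (m : ℕ) :
    MvPowerSeries ι 𝒪 →ₐ[𝒪] MvPowerSeries (ι ⊕ Fin m) 𝒪 :=
  rename Sum.inl

variable (hsX : ∀ i, O.s (X i) = (X (Sum.inr i) : MvPowerSeries (ι ⊕ Fin m) Λ))
  (hsq : ∀ (i : Fin m) (x : O.M),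
    ((X (Sum.inr i) : MvPowerSeries (ι ⊕ Fin m) Λ) ^ 2 - rename Sum.inl (c i)) • x = 0)

include hsX hsq in
/-- The TRACE relation on the specialised module. -/
theorem spec_sq_kill (i : Fin m) (y : SpecM χ (ι ⊕ Fin m) O.M) :
    (specS χ O.s (X i) ^ 2 - inlPS 𝒪 ι m (specSq χ c hc (X i))) • y = 0 := by
  obtain ⟨x, rfl⟩ := SpecM.mk_surjective χ y
  have h1 : ∀ x' : O.M, specS χ O.s (X i) • SpecM.mk χ (ι ⊕ Fin m) x' =
      SpecM.mk χ (ι ⊕ Fin m) ((X (Sum.inr i) : MvPowerSeries (ι ⊕ Fin m) Λ) • x') := by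
    intro x'
    rw [SpecM.specS_smul_mk, liftPS_X, hsX]
  have h2 : inlPS 𝒪 ι m (specSq χ c hc (X i)) • SpecM.mk χ (ι ⊕ Fin m) x =
      SpecM.mk χ (ι ⊕ Fin m) ((rename Sum.inl (c i) : MvPowerSeries (ι ⊕ Fin m) Λ) • x) := by
    rw [specSq_X, inlPS, ← downPS_rename, SpecM.downPS_smul_mk]
  rw [sub_smul, pow_two, mul_smul, h1, h1, h2, sub_eq_zero]
  have h3 := hsq i x
  rw [sub_smul, sub_eq_zero, pow_two, mul_smul] at h3
  rw [h3]

include hsX hsq in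
/-- On the specialised module `𝒪⟦w⟧` acts through the squares. -/
theorem spec_smul_eq (f : MvPowerSeries (Fin m) 𝒪) (y : SpecM χ (ι ⊕ Fin m) O.M) :
    inlPS 𝒪 ι m (specSq χ c hc f) • y = specS χ O.s (sq f) • y :=
  smul_eq_sq_smul (inlPS 𝒪 ι m) (specS χ O.s) (specSq χ c hc)
    (fun i => SpecM.mk χ (ι ⊕ Fin m) (O.b i)) (spec_sq_kill χ O c hc hsX hsq)
    (SpecM.free χ O) f y

/-- The restricted specialised module. -/
abbrev ResSpec : Type := ResM (inlPS 𝒪 ι m).toRingHom (SpecM χ (ι ⊕ Fin m) O.M)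

include hsX hsq in
/-- **The restricted specialised module is free over `𝒪⟦w⟧` through `specSq`.** -/
theorem resSpec_free :
    ∃ b' : Fin (Fintype.card ((Fin m → Bool) × Fin d)) → ResSpec χ O,
      ∀ x : ResSpec χ O, ∃! c' : Fin (Fintype.card ((Fin m → Bool) × Fin d)) →
        MvPowerSeries (Fin m) 𝒪, x = ∑ i, specSq χ c hc (c' i) • b' i := by
  refine exists_fin_basis (S := MvPowerSeries (Fin m) 𝒪) (P := MvPowerSeries ι 𝒪)
    (M := ResSpec χ O) (κ := (Fin m → Bool) × Fin d) (fun f => specSq χ c hc f)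
    (fun p => ResM.of _ (specS χ O.s (monomial (vec p.1) (1 : 𝒪)) •
      SpecM.mk χ (ι ⊕ Fin m) (O.b p.2))) ?_
  intro x
  have h := existsUnique_sq_of_existsUnique (σ := Fin m) (R := 𝒪)
    (specS χ O.s : MvPowerSeries (Fin m) 𝒪 →+* MvPowerSeries (ι ⊕ Fin m) 𝒪)
    (fun i => SpecM.mk χ (ι ⊕ Fin m) (O.b i)) (SpecM.free χ O) x
  have key : ∀ c' : (Fin m → Bool) × Fin d → MvPowerSeries (Fin m) 𝒪,
      (∑ p, specSq χ c hc (c' p) • ResM.of (inlPS 𝒪 ι m).toRingHom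
        (specS χ O.s (monomial (vec p.1) (1 : 𝒪)) • SpecM.mk χ (ι ⊕ Fin m) (O.b p.2)) :
          ResSpec χ O) =
      ResM.of (inlPS 𝒪 ι m).toRingHom
        (∑ p, (specS χ O.s : MvPowerSeries (Fin m) 𝒪 →+* MvPowerSeries (ι ⊕ Fin m) 𝒪) (sq (c' p)) •
          ((specS χ O.s : MvPowerSeries (Fin m) 𝒪 →+* MvPowerSeries (ι ⊕ Fin m) 𝒪)
            (monomial (vec p.1) (1 : 𝒪)) • SpecM.mk χ (ι ⊕ Fin m) (O.b p.2))) := by
    intro c'
    rw [ResM.of_sum]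
    refine Finset.sum_congr rfl fun p _ => ?_
    rw [ResM.smul_of]
    exact congrArg (ResM.of _) (spec_smul_eq χ O c hc hsX hsq (c' p) _)
  obtain ⟨c₀, hc₀, huniq⟩ := h
  refine ⟨c₀, ?_, ?_⟩
  · change x = _
    rw [key]
    exact hc₀
  · intro c' hc'
    apply huniq
    change x = _ at hc'
    rw [key] at hc'
    exact hc'

include c hc hsX hsq in
theorem resSpec_finite : Module.Finite (MvPowerSeries ι 𝒪) (ResSpec χ O) := by
  classical
  obtain ⟨b', hb'⟩ := resSpec_free χ O c hc hsX hsq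
  refine ⟨⟨Finset.univ.image b', ?_⟩⟩
  rw [eq_top_iff]
  intro x _
  obtain ⟨c', hc', -⟩ := hb' x
  rw [hc']
  refine Submodule.sum_mem _ fun i _ => Submodule.smul_mem _ _ (Submodule.subset_span ?_)
  simp

end Fermat.Agent.S43lib.Patch
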