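-- Project H (S43), block H-PATCH: inclusions `J • M ≤ 𝔨 • M` pass to the patched module.
import Mathlib
import Fermat.Agent.TeamA.MvPS
import Fermat.Agent.S43lib.Patch.SInf

set_option autoImplicit false

namespace Fermat.Agent.S43lib.Patch

open IsLocalRing MvPowerSeries Fermat.Agent.TeamA Filter

section Closed

variable {R : Type*} [CommRing R] [IsLocalRing R] [IsNoetherianRing R] {X : Type*} [AddCommGroup X]
  [Module R X] [Module.Finite R X]

/-- Submodules of finitely generated modules over a Noetherian local ring are closed under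
ultralimits. -/
theorem ulim_mem_of_forall_mem [AdicCompact (maximalIdeal R) X] (W : Submodule R X) {a : ℕ → X}
    (ha : ∀ n, a n ∈ W) : ulim (maximalIdeal R) a ∈ W := by
  have hH : IsHausdorff (maximalIdeal R) (X ⧸ W) := inferInstance
  rw [← Submodule.Quotient.mk_eq_zero]
  apply hH.haus
  intro k
  rw [SModEq.zero]
  obtain ⟨n, hn⟩ := (ulim_spec (maximalIdeal R) a k).exists
  unfold Near at hn
  have h1 : (Submodule.Quotient.mk (ulim (maximalIdeal R) a) : X ⧸ W) =
      - W.mkQ (a n - ulim (maximalIdeal R) a) := by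
    rw [map_sub, Submodule.mkQ_apply, Submodule.mkQ_apply, (Submodule.Quotient.mk_eq_zero W).mpr (ha n),
      zero_sub, neg_neg]
  rw [h1]
  refine Submodule.neg_mem _ ?_
  have hmap : ∀ x ∈ (maximalIdeal R ^ k • ⊤ : Submodule R X),
      W.mkQ x ∈ (maximalIdeal R ^ k • ⊤ : Submodule R (X ⧸ W)) := by
    intro x hx
    refine Submodule.smul_induction_on hx ?_ ?_
    · intro r hr y _
      rw [map_smul]
      exact Submodule.smul_mem_smul hr Submodule.mem_top
    · intro x y hx hy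
      rw [map_add]
      exact Submodule.add_mem _ hx hy
  exact hmap _ hn

end Closed

variable {Λ : Type} [CommRing Λ] [IsLocalRing Λ] [IsNoetherianRing Λ]
  [IsAdicComplete (maximalIdeal Λ) Λ] [Finite (ResidueField Λ)] {m d : ℕ}
  {P : Type} [CommRing P] [IsLocalRing P] [IsNoetherianRing P]
  [IsAdicComplete (maximalIdeal P) P] [Finite (ResidueField P)] [Algebra Λ P]
  {T0 : Type} [CommRing T0] [Algebra Λ T0] {M0 : Type} [AddCommGroup M0] [Module T0 M0]
  (L : ∀ n : ℕ, PatchLevel Λ m d P T0 M0 n)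

local notation "𝔪S" => maximalIdeal (MvPowerSeries (Fin m) Λ)

theorem map_s_map_algebraMap {n : ℕ} (Ln : PatchLevel Λ m d P T0 M0 n) (𝔨 : Ideal Λ) :
    Ideal.map Ln.s (𝔨.map (algebraMap Λ (MvPowerSeries (Fin m) Λ))) = 𝔨.map (algebraMap Λ P) := by
  have h : Ideal.map Ln.s (𝔨.map (algebraMap Λ (MvPowerSeries (Fin m) Λ))) =
      Ideal.map (Ln.s : MvPowerSeries (Fin m) Λ →+* P)
        (𝔨.map (algebraMap Λ (MvPowerSeries (Fin m) Λ))) := rfl
  rw [h, Ideal.map_map, AlgHom.comp_algebraMap]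

/-- `C a` acts on the patched module as `algebraMap Λ P a`. -/
theorem PM_algebraMap_smul (a : Λ) (c : PM L) :
    (algebraMap Λ P a) • c = (C a : MvPowerSeries (Fin m) Λ) • c := by
  rw [← PM_sInf_smul, c_eq_algebraMap, AlgHom.commutes]

theorem PM_mem_of_entries (𝔨 : Ideal Λ) {c : PM L}
    (hc : ∀ j, (c j : MvPowerSeries (Fin m) Λ) ∈ 𝔨.map (algebraMap Λ (MvPowerSeries (Fin m) Λ))) :
    c ∈ (𝔨.map (algebraMap Λ P)) • (⊤ : Submodule P (PM L)) := by
  -- every `f ∈ 𝔨 S` and every `y` give `f • y ∈ 𝔨 P • ⊤`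
  have key : ∀ f ∈ 𝔨.map (algebraMap Λ (MvPowerSeries (Fin m) Λ)), ∀ y : PM L,
      f • y ∈ (𝔨.map (algebraMap Λ P)) • (⊤ : Submodule P (PM L)) := by
    intro f hf
    unfold Ideal.map at hf
    refine Submodule.span_induction (p := fun f _ => ∀ y : PM L,
      f • y ∈ (𝔨.map (algebraMap Λ P)) • (⊤ : Submodule P (PM L))) ?_ ?_ ?_ ?_ hf
    · rintro _ ⟨a, ha, rfl⟩ y
      rw [← c_eq_algebraMap, ← PM_algebraMap_smul]
      exact Submodule.smul_mem_smul (Ideal.mem_map_of_mem _ ha) Submodule.mem_top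
    · intro y
      rw [zero_smul]
      exact Submodule.zero_mem _
    · intro f₁ f₂ _ _ h₁ h₂ y
      rw [add_smul]
      exact Submodule.add_mem _ (h₁ y) (h₂ y)
    · intro g f₁ _ h₁ y
      rw [smul_eq_mul, mul_comm, mul_smul]
      exact h₁ (g • y)
  have hsum : c = ∑ j, (c j : MvPowerSeries (Fin m) Λ) •
      ((Pi.single j (1 : MvPowerSeries (Fin m) Λ) : Fin d → MvPowerSeries (Fin m) Λ) : PM L) :=
    pi_eq_sum_single (A := MvPowerSeries (Fin m) Λ) c
  rw [hsum]
  exact Submodule.sum_mem _ fun j _ => key _ (hc j) _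

/-- **Transfer of inclusions.** -/
theorem PM_kill (J : Ideal P) (𝔨 : Ideal Λ)
    (h : ∀ n, ∀ r ∈ J, ∀ x : (L n).M,
      r • x ∈ (𝔨.map (algebraMap Λ P)) • (⊤ : Submodule P (L n).M))
    {r : P} (hr : r ∈ J) (c : PM L) :
    r • c ∈ (𝔨.map (algebraMap Λ P)) • (⊤ : Submodule P (PM L)) := by
  -- level-wise representatives with entries in `𝔨 S`
  have hrep : ∀ n, ∃ c' : Fin d → MvPowerSeries (Fin m) Λ,
      (∀ j, c' j ∈ 𝔨.map (algebraMap Λ (MvPowerSeries (Fin m) Λ))) ∧
        r • (L n).Φ c = (L n).Φ c' := by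
    intro n
    have hx := h n r hr ((L n).Φ c)
    rw [← map_s_map_algebraMap (L n) 𝔨] at hx
    exact (L n).exists_Φ_of_mem_map_smul_top _ hx
  choose c' hc' he' using hrep
  have hA : A L r c = ulim 𝔪S c' := by
    unfold A
    apply ulim_congr_of_near_self
    intro n
    apply (L n).near_of_Φ_eq
    rw [(L n).Φ_act, he' n]
  apply PM_mem_of_entries L 𝔨
  have hW : ulim 𝔪S c' ∈ ((𝔨.map (algebraMap Λ (MvPowerSeries (Fin m) Λ))) • ⊤ :
      Submodule (MvPowerSeries (Fin m) Λ) (Fin d → MvPowerSeries (Fin m) Λ)) := by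
    apply ulim_mem_of_forall_mem
    intro n
    rw [mem_smul_top_pi_iff]
    exact hc' n
  rw [mem_smul_top_pi_iff] at hW
  intro j
  rw [PM_smul_def, hA]
  exact hW j

end Fermat.Agent.S43lib.Patch
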