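-- Project H (S43), block H-PATCH: the `R⟦w⟧`-structure through the squares.
--
-- `M` a `P`-module which is free over `R⟦z_1..z_m⟧` through `s`; `j : P₀ → P` and `s' : R⟦w⟧ → P₀` with
-- `s (z_i)² = j (s' w_i)` on `M`.  Then `j (s' f) = s (f(z²))` on `M` for every power series `f`.
import Mathlib
import Fermat.Agent.TeamA.MvPS
import Fermat.Agent.S43lib.Patch.Sq

set_option autoImplicit false

namespace Fermat.Agent.S43lib.Patch

open MvPowerSeries Fermat.Agent.TeamA

section

variable {R : Type} [CommRing R] {m : ℕ} {P₀ P : Type} [CommRing P₀] [CommRing P] [Algebra R P₀]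
  [Algebra R P] (j : P₀ →ₐ[R] P) (s : MvPowerSeries (Fin m) R →ₐ[R] P)
  (s' : MvPowerSeries (Fin m) R →ₐ[R] P₀) {M : Type} [AddCommGroup M] [Module P M] {d : ℕ}
  (b : Fin d → M)

/-- Elements of `s(J) M` have coordinates in `J`. -/
theorem exists_coords_of_mem_map_smul_top
    (hb : ∀ x : M, ∃ c : Fin d → MvPowerSeries (Fin m) R, x = ∑ i, s (c i) • b i)
    (J : Ideal (MvPowerSeries (Fin m) R)) {x : M}
    (hx : x ∈ (Ideal.map s J) • (⊤ : Submodule P M)) :
    ∃ c : Fin d → MvPowerSeries (Fin m) R, (∀ i, c i ∈ J) ∧ x = ∑ i, s (c i) • b i := by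
  have key : ∀ a ∈ Ideal.map s J, ∀ y : M,
      ∃ c : Fin d → MvPowerSeries (Fin m) R, (∀ i, c i ∈ J) ∧ a • y = ∑ i, s (c i) • b i := by
    intro a ha
    unfold Ideal.map at ha
    refine Submodule.span_induction (p := fun a _ => ∀ y : M,
      ∃ c : Fin d → MvPowerSeries (Fin m) R, (∀ i, c i ∈ J) ∧ a • y = ∑ i, s (c i) • b i)
      ?_ ?_ ?_ ?_ ha
    · rintro _ ⟨f, hf, rfl⟩ y
      obtain ⟨c, rfl⟩ := hb y
      refine ⟨fun i => f * c i, fun i => Ideal.mul_mem_right _ _ hf, ?_⟩
      rw [Finset.smul_sum]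
      refine Finset.sum_congr rfl fun i _ => ?_
      rw [map_mul, mul_smul]
    · intro y
      exact ⟨0, fun i => Ideal.zero_mem _, by simp⟩
    · intro a₁ a₂ _ _ h₁ h₂ y
      obtain ⟨c₁, hc₁, e₁⟩ := h₁ y
      obtain ⟨c₂, hc₂, e₂⟩ := h₂ y
      refine ⟨c₁ + c₂, fun i => Ideal.add_mem _ (hc₁ i) (hc₂ i), ?_⟩
      rw [add_smul, e₁, e₂, ← Finset.sum_add_distrib]
      refine Finset.sum_congr rfl fun i _ => ?_
      rw [Pi.add_apply, map_add, add_smul]
    · intro p a₁ _ h₁ y
      obtain ⟨c₁, hc₁, e₁⟩ := h₁ (p • y)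
      refine ⟨c₁, hc₁, ?_⟩
      rw [← e₁, smul_eq_mul, mul_smul, smul_comm]
  refine Submodule.smul_induction_on hx ?_ ?_
  · intro a ha y _
    exact key a ha y
  · intro x y ⟨c₁, hc₁, e₁⟩ ⟨c₂, hc₂, e₂⟩
    refine ⟨c₁ + c₂, fun i => Ideal.add_mem _ (hc₁ i) (hc₂ i), ?_⟩
    rw [e₁, e₂, ← Finset.sum_add_distrib]
    refine Finset.sum_congr rfl fun i _ => ?_
    rw [Pi.add_apply, map_add, add_smul]

/-- The `(z)`-adic filtration of a free module is separated. -/
theorem eq_zero_of_forall_mem_varIdeal_pow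
    (hb : ∀ x : M, ∃! c : Fin d → MvPowerSeries (Fin m) R, x = ∑ i, s (c i) • b i) {x : M}
    (hx : ∀ k : ℕ, x ∈ (Ideal.map s (varIdeal (Fin m) R ^ k)) • (⊤ : Submodule P M)) : x = 0 := by
  obtain ⟨c, hc, huniq⟩ := hb x
  have hc0 : ∀ i, c i = 0 := by
    intro i
    have hH : IsHausdorff (varIdeal (Fin m) R) (MvPowerSeries (Fin m) R) := inferInstance
    apply hH.haus
    intro k
    rw [SModEq.zero, smul_eq_mul, Ideal.mul_top]
    obtain ⟨c', hc', e'⟩ := exists_coords_of_mem_map_smul_top s b (fun y => (hb y).exists) _ (hx k)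
    rw [← huniq c' e']
    exact hc' i
  rw [hc]
  simp [hc0]

variable (hsq : ∀ (i : Fin m) (x : M), (s (X i) ^ 2 - j (s' (X i))) • x = 0)

/-- The defect. -/
noncomputable def sqDefect (f : MvPowerSeries (Fin m) R) (x : M) : M := j (s' f) • x - s (sq f) • x

theorem sqDefect_add (f g : MvPowerSeries (Fin m) R) (x : M) :
    sqDefect j s s' (f + g) x = sqDefect j s s' f x + sqDefect j s s' g x := by
  unfold sqDefect
  rw [map_add, map_add, map_add, map_add, add_smul, add_smul]
  abel

theorem sqDefect_mul (f g : MvPowerSeries (Fin m) R) (x : M) :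
    sqDefect j s s' (f * g) x = j (s' f) • sqDefect j s s' g x + sqDefect j s s' f (s (sq g) • x) := by
  unfold sqDefect
  rw [map_mul, map_mul, map_mul, map_mul, mul_smul, mul_smul, smul_sub]
  abel

theorem sqDefect_C (a : R) (x : M) : sqDefect j s s' (C a) x = 0 := by
  unfold sqDefect
  have h1 : sq (C a : MvPowerSeries (Fin m) R) = C a := by
    unfold sq
    exact expand_C 2 two_ne_zero a
  rw [h1, c_eq_algebraMap, AlgHom.commutes, AlgHom.commutes, AlgHom.commutes, sub_self]

include hsq in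
theorem sqDefect_X (i : Fin m) (x : M) : sqDefect j s s' (X i) x = 0 := by
  unfold sqDefect
  have h1 : sq (X i : MvPowerSeries (Fin m) R) = X i ^ 2 := by
    unfold sq
    exact expand_X 2 two_ne_zero i
  have h := hsq i x
  rw [sub_smul, sub_eq_zero] at h
  rw [h1, map_pow, h, sub_self]

include hsq in
theorem sqDefect_poly (p : MvPolynomial (Fin m) R) :
    ∀ x : M, sqDefect j s s' (p : MvPowerSeries (Fin m) R) x = 0 := by
  induction p using MvPolynomial.induction_on with
  | C a =>
    intro x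
    rw [MvPolynomial.coe_C]
    exact sqDefect_C j s s' a x
  | add p q hp hq =>
    intro x
    rw [MvPolynomial.coe_add, sqDefect_add, hp, hq, add_zero]
  | mul_X p i hp =>
    intro x
    rw [MvPolynomial.coe_mul, MvPolynomial.coe_X, sqDefect_mul, sqDefect_X j s s' hsq, smul_zero, hp, add_zero]

include hsq in
theorem sqDefect_mem (k : ℕ) : ∀ g ∈ varIdeal (Fin m) R ^ k, ∀ x : M,
    sqDefect j s s' g x ∈ (Ideal.map s (varIdeal (Fin m) R ^ k)) • (⊤ : Submodule P M) := by
  induction k with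
  | zero =>
    intro g _ x
    rw [pow_zero, Ideal.one_eq_top, Ideal.map_top, Submodule.top_smul]
    exact Submodule.mem_top
  | succ k ih =>
    -- the predicate on `a ∈ (z)`
    have hQ : ∀ a ∈ varIdeal (Fin m) R, ∀ g' ∈ varIdeal (Fin m) R ^ k, ∀ x : M,
        sqDefect j s s' (a * g') x ∈
          (Ideal.map s (varIdeal (Fin m) R ^ (k + 1))) • (⊤ : Submodule P M) := by
      intro a ha
      refine Submodule.span_induction (p := fun a _ => ∀ g' ∈ varIdeal (Fin m) R ^ k, ∀ x : M,
        sqDefect j s s' (a * g') x ∈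
          (Ideal.map s (varIdeal (Fin m) R ^ (k + 1))) • (⊤ : Submodule P M)) ?_ ?_ ?_ ?_ ha
      · rintro _ ⟨i, rfl⟩ g' hg' x
        rw [sqDefect_mul, sqDefect_X j s s' hsq, add_zero]
        have h := hsq i (sqDefect j s s' g' x)
        rw [sub_smul, sub_eq_zero] at h
        rw [← h, pow_two, mul_smul]
        have hX : s (X i) ∈ Ideal.map s (varIdeal (Fin m) R) :=
          Ideal.mem_map_of_mem _ (Ideal.subset_span ⟨i, rfl⟩)
        have h1 : s (X i) • sqDefect j s s' g' x ∈
            (Ideal.map s (varIdeal (Fin m) R ^ k)) • (⊤ : Submodule P M) :=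
          Submodule.smul_mem _ _ (ih g' hg' x)
        rw [pow_succ', Ideal.map_mul, mul_smul]
        exact Submodule.smul_mem_smul hX h1
      · intro g' _ x
        rw [zero_mul]
        have : sqDefect j s s' (0 : MvPowerSeries (Fin m) R) x = 0 := by
          unfold sqDefect
          simp
        rw [this]
        exact Submodule.zero_mem _
      · intro a₁ a₂ _ _ h₁ h₂ g' hg' x
        rw [add_mul, sqDefect_add]
        exact Submodule.add_mem _ (h₁ g' hg' x) (h₂ g' hg' x)
      · intro u a₁ _ h₁ g' hg' x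
        rw [smul_eq_mul, mul_comm u a₁, mul_assoc]
        exact h₁ (u * g') (Ideal.mul_mem_left _ u hg') x
    intro g hg x
    rw [pow_succ'] at hg
    refine Submodule.mul_induction_on hg ?_ ?_
    · intro a ha g' hg'
      exact hQ a ha g' hg' x
    · intro g₁ g₂ h₁ h₂
      rw [sqDefect_add]
      exact Submodule.add_mem _ h₁ h₂

include hsq in
/-- **`R⟦w⟧` acts through the squares.** -/
theorem smul_eq_sq_smul
    (hb : ∀ x : M, ∃! c : Fin d → MvPowerSeries (Fin m) R, x = ∑ i, s (c i) • b i)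
    (f : MvPowerSeries (Fin m) R) (x : M) : j (s' f) • x = s (sq f) • x := by
  rw [← sub_eq_zero]
  change sqDefect j s s' f x = 0
  apply eq_zero_of_forall_mem_varIdeal_pow s b hb
  intro k
  have e : f = ((truncTotal k f : MvPolynomial (Fin m) R) : MvPowerSeries (Fin m) R) +
      (f - ((truncTotal k f : MvPolynomial (Fin m) R) : MvPowerSeries (Fin m) R)) := by ring
  rw [e, sqDefect_add, sqDefect_poly j s s' hsq, zero_add]
  exact sqDefect_mem j s s' hsq k _ (sub_coe_truncTotal_mem k f) x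

end

end Fermat.Agent.S43lib.Patch
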